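import Mathlib.AlgebraicGeometry.EllipticCurve.Affine.Point
import Mathlib.AlgebraicGeometry.EllipticCurve.VariableChange

/-!
# Points under a change of variables

The group isomorphism on points induced by an admissible change of variables:
`(x, y) ↦ (u²x + r, u³y + u²sx + t)` from `C • W` to `W`.
-/

namespace Fermat.Agent.SmallExponents

open WeierstrassCurve

variable {K : Type*} [Field K] [DecidableEq K] (W : WeierstrassCurve K) (C : VariableChange K)

/-- x-coordinate of the change of variables. -/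
def vcX (x : K) : K := (C.u : K) ^ 2 * x + C.r

/-- y-coordinate of the change of variables. -/
def vcY (x y : K) : K := (C.u : K) ^ 3 * y + (C.u : K) ^ 2 * C.s * x + C.t

omit [DecidableEq K] in
lemma vcX_injective : Function.Injective (vcX C) := by
  intro x x' h
  simpa [vcX] using h

omit [DecidableEq K] in
lemma vc_equation_iff (x y : K) :
    W.toAffine.Equation (vcX C x) (vcY C x y) ↔ (C • W).toAffine.Equation x y := by
  have hu : (C.u : K) ≠ 0 := C.u.ne_zero
  rw [Affine.equation_iff, Affine.equation_iff]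
  simp only [variableChange_def, vcX, vcY, Units.val_inv_eq_inv_val]
  field_simp
  constructor <;> intro h <;> linear_combination h

omit [DecidableEq K] in
lemma vc_negY (x y : K) :
    W.toAffine.negY (vcX C x) (vcY C x y) = vcY C x ((C • W).toAffine.negY x y) := by
  have hu : (C.u : K) ≠ 0 := C.u.ne_zero
  simp only [Affine.negY, variableChange_def, vcX, vcY, Units.val_inv_eq_inv_val]
  field_simp
  ring

omit [DecidableEq K] in
lemma vcY_inj {x y y' : K} : vcY C x y = vcY C x y' ↔ y = y' := by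
  simp [vcY]

/-- Slopes of chords and tangents under a change of variables. -/
lemma vc_slope {x₁ x₂ y₁ y₂ : K} (h₁ : (C • W).toAffine.Equation x₁ y₁)
    (h₂ : (C • W).toAffine.Equation x₂ y₂)
    (hxy : ¬(x₁ = x₂ ∧ y₁ = (C • W).toAffine.negY x₂ y₂)) :
    W.toAffine.slope (vcX C x₁) (vcX C x₂) (vcY C x₁ y₁) (vcY C x₂ y₂) =
      C.u * (C • W).toAffine.slope x₁ x₂ y₁ y₂ + C.s := by
  have hu : (C.u : K) ≠ 0 := C.u.ne_zero
  rcases eq_or_ne x₁ x₂ with rfl | hx
  · have hy : y₁ ≠ (C • W).toAffine.negY x₁ y₂ := fun h => hxy ⟨rfl, h⟩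
    obtain rfl : y₁ = y₂ := Affine.Y_eq_of_Y_ne h₁ h₂ rfl hy
    have hy' : vcY C x₁ y₁ ≠ W.toAffine.negY (vcX C x₁) (vcY C x₁ y₁) := by
      rw [vc_negY]; exact fun h => hy ((vcY_inj C).mp h)
    rw [Affine.slope_of_Y_ne rfl hy, Affine.slope_of_Y_ne rfl hy', vc_negY]
    have hd : y₁ - (C • W).toAffine.negY x₁ y₁ ≠ 0 := sub_ne_zero.mpr hy
    have e : vcY C x₁ y₁ - vcY C x₁ ((C • W).toAffine.negY x₁ y₁)
        = (C.u : K) ^ 3 * (y₁ - (C • W).toAffine.negY x₁ y₁) := by simp only [vcY]; ring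
    rw [e, div_eq_iff (mul_ne_zero (pow_ne_zero _ hu) hd)]
    have k : ((C • W).toAffine.slope x₁ x₁ y₁ y₁) * (y₁ - (C • W).toAffine.negY x₁ y₁) =
        3 * x₁ ^ 2 + 2 * (C • W).a₂ * x₁ + (C • W).a₄ - (C • W).a₁ * y₁ := by
      rw [Affine.slope_of_Y_ne rfl hy, div_mul_cancel₀ _ hd]
    rw [← Affine.slope_of_Y_ne rfl hy]
    generalize (C • W).toAffine.slope x₁ x₁ y₁ y₁ = L at k ⊢
    simp only [Affine.negY, variableChange_def, vcX, vcY, Units.val_inv_eq_inv_val] at k ⊢
    field_simp at k ⊢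
    linear_combination -k
  · have hx' : vcX C x₁ ≠ vcX C x₂ := fun h => hx (vcX_injective C h)
    rw [Affine.slope_of_X_ne hx, Affine.slope_of_X_ne hx']
    have : x₁ - x₂ ≠ 0 := sub_ne_zero.mpr hx
    simp only [vcX, vcY]
    have : (C.u : K) ^ 2 * x₁ + C.r - ((C.u : K) ^ 2 * x₂ + C.r) = C.u ^ 2 * (x₁ - x₂) := by ring
    rw [this]
    field_simp
    ring

omit [DecidableEq K] in
/-- A change of variables preserves nonsingularity of points. -/
lemma vc_nonsingular_iff (x y : K) :
    W.toAffine.Nonsingular (vcX C x) (vcY C x y) ↔ (C • W).toAffine.Nonsingular x y := by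
  have hu : (C.u : K) ≠ 0 := C.u.ne_zero
  rw [Affine.nonsingular_iff', Affine.nonsingular_iff', vc_equation_iff]
  apply and_congr_right
  intro _
  have e1 : W.a₁ * vcY C x y - (3 * vcX C x ^ 2 + 2 * W.a₂ * vcX C x + W.a₄)
      = (C.u : K) ^ 4 * ((C • W).a₁ * y - (3 * x ^ 2 + 2 * (C • W).a₂ * x + (C • W).a₄))
        - C.s * (C.u : K) ^ 3 * (2 * y + (C • W).a₁ * x + (C • W).a₃) := by
    simp only [variableChange_def, vcX, vcY, Units.val_inv_eq_inv_val]
    field_simp
    ring
  have e2 : 2 * vcY C x y + W.a₁ * vcX C x + W.a₃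
      = (C.u : K) ^ 3 * (2 * y + (C • W).a₁ * x + (C • W).a₃) := by
    simp only [variableChange_def, vcX, vcY, Units.val_inv_eq_inv_val]
    field_simp
    ring
  rw [e1, e2]
  by_cases h : 2 * y + (C • W).a₁ * x + (C • W).a₃ = 0 <;> simp [h, hu]

omit [DecidableEq K] in
lemma vc_addX (x₁ x₂ L : K) :
    W.toAffine.addX (vcX C x₁) (vcX C x₂) (C.u * L + C.s) =
      vcX C ((C • W).toAffine.addX x₁ x₂ L) := by
  have hu : (C.u : K) ≠ 0 := C.u.ne_zero
  simp only [Affine.addX, variableChange_def, vcX, Units.val_inv_eq_inv_val]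
  field_simp
  ring

omit [DecidableEq K] in
lemma vc_addY (x₁ x₂ y₁ L : K) :
    W.toAffine.addY (vcX C x₁) (vcX C x₂) (vcY C x₁ y₁) (C.u * L + C.s) =
      vcY C ((C • W).toAffine.addX x₁ x₂ L) ((C • W).toAffine.addY x₁ x₂ y₁ L) := by
  simp only [Affine.addY]
  rw [← vc_negY]
  simp only [Affine.negAddY, vc_addX]
  congr 1
  simp only [vcX, vcY]
  ring

/-- The map on points induced by `(x, y) ↦ (u²x + r, u³y + u²sx + t)`, as a bare function. -/
def vcFun : (C • W).toAffine.Point → W.toAffine.Point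
  | 0 => 0
  | .some x y h => .some (vcX C x) (vcY C x y) ((vc_nonsingular_iff W C x y).mpr h)

/-- The group homomorphism on points induced by an admissible change of variables. -/
def vcHom : (C • W).toAffine.Point →+ W.toAffine.Point where
  toFun := vcFun W C
  map_zero' := rfl
  map_add' := by
    rintro (_ | ⟨x₁, y₁, h₁⟩) (_ | ⟨x₂, y₂, h₂⟩)
    any_goals rfl
    by_cases hxy : x₁ = x₂ ∧ y₁ = (C • W).toAffine.negY x₂ y₂
    · rw [Affine.Point.add_of_Y_eq hxy.1 hxy.2]
      exact (Affine.Point.add_of_Y_eq (congrArg _ hxy.1) (by rw [vc_negY, hxy.1, hxy.2])).symm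
    · have hxy' : ¬(vcX C x₁ = vcX C x₂ ∧
          vcY C x₁ y₁ = W.toAffine.negY (vcX C x₂) (vcY C x₂ y₂)) := by
        rintro ⟨hx, hy⟩
        obtain rfl := vcX_injective C hx
        rw [vc_negY] at hy
        exact hxy ⟨rfl, (vcY_inj C).mp hy⟩
      rw [Affine.Point.add_some hxy]
      simp only [vcFun]
      rw [Affine.Point.add_some hxy']
      simp only [vc_slope W C h₁.1 h₂.1 hxy, vc_addX, vc_addY]

@[simp]
lemma vcHom_some {x y : K} (h : (C • W).toAffine.Nonsingular x y) :
    vcHom W C (.some x y h) =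
      .some (vcX C x) (vcY C x y) ((vc_nonsingular_iff W C x y).mpr h) :=
  rfl

/-- The map on points induced by a change of variables is injective. -/
lemma vcHom_injective : Function.Injective (vcHom W C) := by
  rw [injective_iff_map_eq_zero]
  rintro (_ | ⟨x, y, h⟩) hP
  · rfl
  · simp at hP

/-- The map on points induced by a change of variables is surjective. -/
lemma vcHom_surjective : Function.Surjective (vcHom W C) := by
  rintro (_ | ⟨x, y, h⟩)
  · exact ⟨0, rfl⟩
  · have hu : (C.u : K) ≠ 0 := C.u.ne_zero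
    have hx : vcX C ((x - C.r) / (C.u : K) ^ 2) = x := by simp only [vcX]; field_simp; ring
    have hy : vcY C ((x - C.r) / (C.u : K) ^ 2)
        ((y - (C.u : K) ^ 2 * C.s * ((x - C.r) / (C.u : K) ^ 2) - C.t) / (C.u : K) ^ 3) = y := by
      simp only [vcY]; field_simp; ring
    refine ⟨.some _ _ ((vc_nonsingular_iff W C _ _).mp (by rw [hx, hy]; exact h)), ?_⟩
    simp only [vcHom_some, hx, hy]

/-- The change of variables as an isomorphism of groups of points. -/
noncomputable def vcEquiv : (C • W).toAffine.Point ≃+ W.toAffine.Point :=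
  AddEquiv.ofBijective (vcHom W C) ⟨vcHom_injective W C, vcHom_surjective W C⟩

end Fermat.Agent.SmallExponents
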