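import Mathlib.GroupTheory.OrderOfElement
import Mathlib.Tactic.LinearCombination
import Fermat.Agent.SmallExponents.VC

/-!
# Tate normal form

Tate normal form `y² + (1 - c)xy - by = x³ - bx²` of a point of prime order at least 5: multiples of
`(0, 0)`, and behaviour of x-coordinates under the change of variables reaching that form.
-/

namespace Fermat.Agent.SmallExponents

open WeierstrassCurve

variable {K : Type*} [Field K] {W : WeierstrassCurve K}

/-- The x-coordinate of a point (`0` at infinity). -/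
def xCoord : W.toAffine.Point → K
  | 0 => 0
  | .some x _ _ => x

/-- `P` is the affine point with coordinates `(x, y)`. -/
def HasCoords (P : W.toAffine.Point) (x y : K) : Prop :=
  ∃ h : W.toAffine.Nonsingular x y, P = .some x y h

lemma HasCoords.xCoord_eq {P : W.toAffine.Point} {x y : K} (h : HasCoords P x y) :
    xCoord P = x := by
  obtain ⟨_, rfl⟩ := h; rfl

lemma exists_hasCoords {P : W.toAffine.Point} (h : P ≠ 0) : ∃ x y, HasCoords P x y := by
  rcases P with _ | ⟨x, y, hn⟩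
  · exact absurd rfl h
  · exact ⟨x, y, hn, rfl⟩

lemma eq_or_eq_neg_of_xCoord_eq {P P' : W.toAffine.Point} (hP : P ≠ 0) (hP' : P' ≠ 0)
    (h : xCoord P = xCoord P') : P = P' ∨ P = -P' := by
  rcases P with _ | ⟨x, y, hn⟩
  · exact absurd rfl hP
  rcases P' with _ | ⟨x', y', hn'⟩
  · exact absurd rfl hP'
  exact Affine.Point.X_eq_iff.mp h

@[simp]
lemma xCoord_neg (P : W.toAffine.Point) : xCoord (-P) = xCoord P := by
  cases P <;> rfl

variable [DecidableEq K]

/-- The chord construction in coordinates. -/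
lemma HasCoords.add {P P' : W.toAffine.Point} {x₁ y₁ x₂ y₂ : K} (h₁ : HasCoords P x₁ y₁)
    (h₂ : HasCoords P' x₂ y₂) (hx : x₁ ≠ x₂) {m x₃ y₃ : K} (hm : y₁ - y₂ = m * (x₁ - x₂))
    (hx₃ : x₃ = m ^ 2 + W.a₁ * m - W.a₂ - x₁ - x₂)
    (hy₃ : y₃ = -(m * (x₃ - x₁) + y₁) - W.a₁ * x₃ - W.a₃) : HasCoords (P + P') x₃ y₃ := by
  obtain ⟨n₁, rfl⟩ := h₁
  obtain ⟨n₂, rfl⟩ := h₂
  have hs : W.toAffine.slope x₁ x₂ y₁ y₂ = m := by
    rw [Affine.slope_of_X_ne hx, hm, mul_div_assoc, div_self (sub_ne_zero.mpr hx), mul_one]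
  rw [Affine.Point.add_of_X_ne hx]
  have hx' : W.toAffine.addX x₁ x₂ (W.toAffine.slope x₁ x₂ y₁ y₂) = x₃ := by
    rw [hs, Affine.addX, hx₃]
  have hy' : W.toAffine.addY x₁ x₂ y₁ (W.toAffine.slope x₁ x₂ y₁ y₂) = y₃ := by
    rw [hs] at hx' ⊢
    rw [Affine.addY, Affine.negAddY, hx', Affine.negY, hy₃]
  have n₃ : W.toAffine.Nonsingular x₃ y₃ := by
    rw [← hx', ← hy']
    exact Affine.nonsingular_add n₁ n₂ fun h => hx h.1
  refine ⟨n₃, ?_⟩
  simp only [Affine.Point.some.injEq]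
  exact ⟨hx', hy'⟩

/-- The tangent construction in coordinates. -/
lemma HasCoords.double {P : W.toAffine.Point} {x y : K} (h : HasCoords P x y) {m x₃ y₃ : K}
    (hd : 2 * y + W.a₁ * x + W.a₃ ≠ 0)
    (hm : m * (2 * y + W.a₁ * x + W.a₃) = 3 * x ^ 2 + 2 * W.a₂ * x + W.a₄ - W.a₁ * y)
    (hx₃ : x₃ = m ^ 2 + W.a₁ * m - W.a₂ - x - x)
    (hy₃ : y₃ = -(m * (x₃ - x) + y) - W.a₁ * x₃ - W.a₃) : HasCoords (P + P) x₃ y₃ := by
  obtain ⟨n, rfl⟩ := h
  have hy : y ≠ W.toAffine.negY x y := by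
    intro e
    apply hd
    rw [Affine.negY] at e
    linear_combination e
  have hs : W.toAffine.slope x x y y = m := by
    rw [Affine.slope_of_Y_ne rfl hy, div_eq_iff (sub_ne_zero.mpr hy), Affine.negY]
    linear_combination -hm
  rw [Affine.Point.add_self_of_Y_ne hy]
  have hx' : W.toAffine.addX x x (W.toAffine.slope x x y y) = x₃ := by rw [hs, Affine.addX, hx₃]
  have hy' : W.toAffine.addY x x y (W.toAffine.slope x x y y) = y₃ := by
    rw [hs] at hx' ⊢
    rw [Affine.addY, Affine.negAddY, hx', Affine.negY, hy₃]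
  have n₃ : W.toAffine.Nonsingular x₃ y₃ := by
    rw [← hx', ← hy']
    exact Affine.nonsingular_add n n fun h => hy h.2
  refine ⟨n₃, ?_⟩
  simp only [Affine.Point.some.injEq]
  exact ⟨hx', hy'⟩

omit [DecidableEq K] in
lemma HasCoords.neg {P : W.toAffine.Point} {x y : K} (h : HasCoords P x y) :
    HasCoords (-P) x (-y - W.a₁ * x - W.a₃) := by
  obtain ⟨n, rfl⟩ := h
  exact ⟨_, rfl⟩

omit [DecidableEq K] in
lemma HasCoords.unique {P : W.toAffine.Point} {x y x' y' : K} (h : HasCoords P x y)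
    (h' : HasCoords P x' y') : x = x' ∧ y = y' := by
  obtain ⟨n, rfl⟩ := h
  obtain ⟨n', e⟩ := h'
  simpa using e

/-- A nonzero point killed by a prime `p`. -/
structure PrimeOrder (Q : W.toAffine.Point) (p : ℕ) : Prop where
  prime : p.Prime
  ne_zero : Q ≠ 0
  nsmul_eq : p • Q = 0

lemma PrimeOrder.nsmul_eq_zero_iff {Q : W.toAffine.Point} {p : ℕ} (h : PrimeOrder Q p) (i : ℕ) :
    i • Q = 0 ↔ p ∣ i := by
  have : Fact p.Prime := ⟨h.prime⟩
  rw [← addOrderOf_dvd_iff_nsmul_eq_zero, addOrderOf_eq_prime h.nsmul_eq h.ne_zero]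

lemma PrimeOrder.nsmul {Q : W.toAffine.Point} {p : ℕ} (h : PrimeOrder Q p) {i : ℕ}
    (hi : ¬ p ∣ i) : PrimeOrder (i • Q) p where
  prime := h.prime
  ne_zero := fun e => hi ((h.nsmul_eq_zero_iff i).mp e)
  nsmul_eq := by rw [smul_comm, h.nsmul_eq, nsmul_zero]

lemma PrimeOrder.xCoord_ne {Q : W.toAffine.Point} {p : ℕ} (h : PrimeOrder Q p) {i j : ℕ}
    (hi : ¬ p ∣ i) (hj : ¬ p ∣ j) (hij : ¬ (p : ℤ) ∣ (i : ℤ) - j) (hij' : ¬ p ∣ i + j) :
    xCoord (i • Q) ≠ xCoord (j • Q) := by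
  intro e
  rcases eq_or_eq_neg_of_xCoord_eq (h.nsmul hi).ne_zero (h.nsmul hj).ne_zero e with e | e
  · apply hij
    have : Fact p.Prime := ⟨h.prime⟩
    rw [← addOrderOf_eq_prime h.nsmul_eq h.ne_zero, addOrderOf_dvd_iff_zsmul_eq_zero, sub_zsmul,
      natCast_zsmul, natCast_zsmul, e]
    exact sub_self _
  · exact hij' ((h.nsmul_eq_zero_iff _).mp (by rw [add_nsmul, e, neg_add_cancel]))

variable (W) in
/-- `W` is in Tate normal form with parameters `b, c`. -/
structure IsTate (b c : K) : Prop where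
  a₁_eq : W.a₁ = 1 - c
  a₂_eq : W.a₂ = -b
  a₃_eq : W.a₃ = -b
  a₄_eq : W.a₄ = 0
  a₆_eq : W.a₆ = 0

/-- Every point of prime order at least 5 can be moved to `(0, 0)` on a Tate normal form. -/
lemma exists_tate {Q : W.toAffine.Point} {p : ℕ} (h : PrimeOrder Q p) (hp : 5 ≤ p) :
    ∃ (C : VariableChange K) (b c : K) (P : (C • W).toAffine.Point),
      IsTate (C • W) b c ∧ b ≠ 0 ∧ HasCoords P 0 0 ∧ vcHom W C P = Q ∧ PrimeOrder P p := by
  obtain ⟨X, Y, hQ⟩ := exists_hasCoords h.ne_zero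
  have small : ∀ i, 0 < i → i < 5 → i • Q ≠ 0 := fun i h0 h5 e => by
    have := Nat.le_of_dvd h0 ((h.nsmul_eq_zero_iff i).mp e)
    omega
  set D := 2 * Y + W.a₁ * X + W.a₃ with hD
  have hD0 : D ≠ 0 := by
    intro e
    apply small 2 (by norm_num) (by norm_num)
    obtain ⟨n, hn⟩ := hQ
    rw [two_nsmul, hn]
    exact Affine.Point.add_self_of_Y_eq (by rw [Affine.negY]; linear_combination e)
  set s := (3 * X ^ 2 + 2 * W.a₂ * X + W.a₄ - W.a₁ * Y) / D with hs
  have hsD : s * D = 3 * X ^ 2 + 2 * W.a₂ * X + W.a₄ - W.a₁ * Y := div_mul_cancel₀ _ hD0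
  set A := W.a₂ - s * W.a₁ + 3 * X - s ^ 2 with hA
  have hA0 : A ≠ 0 := by
    intro e
    have h2 := hQ.double (m := s) (x₃ := X) (y₃ := -(s * (X - X) + Y) - W.a₁ * X - W.a₃) hD0 hsD
      (by linear_combination e) rfl
    have h3 : (2 • Q) + Q = 0 := by
      obtain ⟨n2, hn2⟩ := h2
      obtain ⟨n, hn⟩ := hQ
      rw [two_nsmul, hn2, hn]
      exact Affine.Point.add_of_Y_eq rfl (by rw [Affine.negY]; ring)
    exact small 3 (by norm_num) (by norm_num) (by rw [succ_nsmul]; exact h3)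
  let u : Kˣ := Units.mk0 (D / A) (div_ne_zero hD0 hA0)
  let C : VariableChange K := ⟨u, X, s, Y⟩
  obtain ⟨n, hn⟩ := hQ
  have hX : vcX C 0 = X := by simp [vcX, C]
  have hY : vcY C 0 0 = Y := by simp [vcY, C]
  have hn0 : (C • W).toAffine.Nonsingular 0 0 :=
    (vc_nonsingular_iff W C 0 0).mp (by rw [hX, hY]; exact n)
  have hP : vcHom W C (.some 0 0 hn0) = Q := by
    rw [vcHom_some, hn]; simp only [hX, hY]
  have hu : (C.u : K) = D / A := rfl
  refine ⟨C, -(A * (C.u⁻¹ : K) ^ 2), 1 - (C • W).a₁, .some 0 0 hn0,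
    ⟨by ring, ?_, ?_, ?_, ?_⟩, ?_, ⟨_, rfl⟩, hP, ⟨h.prime, Affine.Point.some_ne_zero _, ?_⟩⟩
  · simp only [variableChange_def, Units.val_inv_eq_inv_val, hu, hA]
    simp only [C]; ring
  · have key : (C • W).a₃ * (C.u : K) ^ 3 = D := by
      simp only [variableChange_def, Units.val_inv_eq_inv_val, hD, C]
      field_simp
      ring
    rw [← mul_left_inj' (pow_ne_zero 3 C.u.ne_zero), key]
    simp only [neg_neg]
    rw [hu]
    field_simp
  · simp only [variableChange_def, C, mul_eq_zero]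
    right; linear_combination -hsD + s * hD
  · simp only [variableChange_def, C, mul_eq_zero]
    right
    linear_combination -((Affine.equation_iff _ _).mp n.1)
  · simp [hu, hA0, hD0]
  · exact vcHom_injective W C (by rw [map_nsmul, hP, h.nsmul_eq, map_zero])

section multiples

variable {b c : K} (hT : IsTate W b c) (hb : b ≠ 0) {P : W.toAffine.Point} (hP : HasCoords P 0 0)
include hT hb hP

lemma tate_two : HasCoords (2 • P) b (b * c) := by
  rw [two_nsmul]
  exact hP.double (m := 0) (by simp [hT.a₁_eq, hT.a₃_eq, hb]) (by simp [hT.a₄_eq])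
    (by rw [hT.a₂_eq]; ring) (by rw [hT.a₁_eq, hT.a₃_eq]; ring)

lemma tate_three : HasCoords (3 • P) c (b - c) := by
  rw [show (3 • P : W.toAffine.Point) = 2 • P + P from succ_nsmul P 2]
  exact (tate_two hT hb hP).add hP (m := c) hb (by ring)
    (by rw [hT.a₁_eq, hT.a₂_eq]; ring) (by rw [hT.a₁_eq, hT.a₃_eq]; ring)

lemma tate_c_ne_zero {p : ℕ} (h : PrimeOrder P p) (hp : 5 ≤ p) : c ≠ 0 := by
  rintro rfl
  refine h.xCoord_ne (i := 3) (j := 1) ?_ ?_ ?_ ?_ ?_
  · intro hd; have := Nat.le_of_dvd (by norm_num) hd; omega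
  · intro hd; have := Nat.le_of_dvd (by norm_num) hd; omega
  · intro hd; have := Int.le_of_dvd (by norm_num) hd; push_cast at this; omega
  · intro hd; have := Nat.le_of_dvd (by norm_num) hd; omega
  · rw [one_nsmul, hP.xCoord_eq, (tate_three hT hb hP).xCoord_eq]

variable {r : K} (hc : c ≠ 0) (hr : b = r * c)
include hc hr

lemma tate_four : HasCoords (4 • P) (r * (r - 1)) (r ^ 2 * (c - r + 1)) := by
  rw [show (4 • P : W.toAffine.Point) = 3 • P + P from succ_nsmul P 3]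
  exact (tate_three hT hb hP).add hP (m := r - 1) hc (by rw [hr]; ring)
    (by rw [hT.a₁_eq, hT.a₂_eq, hr]; ring) (by rw [hT.a₁_eq, hT.a₃_eq, hr]; ring)

variable {s : K} (hr1 : r * (r - 1) ≠ 0) (hs : c = s * (r - 1))
include hr1 hs

lemma tate_five : HasCoords (5 • P) (r * s * (s - 1)) (r * s ^ 2 * (r - s)) := by
  rw [show (5 • P : W.toAffine.Point) = 4 • P + P from succ_nsmul P 4]
  exact (tate_four hT hb hP hc hr).add hP (m := r * (s - 1)) hr1 (by rw [hs]; ring)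
    (by rw [hT.a₁_eq, hT.a₂_eq, hr, hs]; ring) (by rw [hT.a₁_eq, hT.a₃_eq, hr, hs]; ring)

lemma tate_six (hx5 : r * s * (s - 1) ≠ 0) {m : K} (hm : s * (r - s) = m * (s - 1)) :
    HasCoords (6 • P) (m ^ 2 + (1 - c) * m + b - r * s * (s - 1))
      (-(m * (m ^ 2 + (1 - c) * m + b - r * s * (s - 1)))
        - (1 - c) * (m ^ 2 + (1 - c) * m + b - r * s * (s - 1)) + b) := by
  rw [show (6 • P : W.toAffine.Point) = 5 • P + P from succ_nsmul P 5]
  exact (tate_five hT hb hP hc hr hr1 hs).add hP (m := m) hx5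
    (by linear_combination r * s * hm)
    (by rw [hT.a₁_eq, hT.a₂_eq]; ring)
    (by rw [hT.a₁_eq, hT.a₃_eq]; linear_combination r * s * hm)

end multiples

end Fermat.Agent.SmallExponents
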