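import Mathlib.Tactic.FieldSimp
import Fermat.Agent.SmallExponents.Tate

/-!
# Invariants of a point and its multiples

Translation- and scaling-invariant functions of the x-coordinates of multiples of a point.
-/

namespace Fermat.Agent.SmallExponents

open WeierstrassCurve

variable {K : Type*} [Field K] {W : WeierstrassCurve K}

/-- `4x³ + b₂x² + 2b₄x + b₆`, the value of `WeierstrassCurve.twoTorsionPolynomial` at `x`. -/
def twoTorsionCubic (W : WeierstrassCurve K) (x : K) : K :=
  4 * x ^ 3 + W.b₂ * x ^ 2 + 2 * W.b₄ * x + W.b₆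

lemma twoTorsionCubic_vc (C : VariableChange K) (x : K) :
    twoTorsionCubic W (vcX C x) = (C.u : K) ^ 6 * twoTorsionCubic (C • W) x := by
  have hu : (C.u : K) ≠ 0 := C.u.ne_zero
  simp only [twoTorsionCubic, variableChange_b₂, variableChange_b₄, variableChange_b₆, vcX,
    Units.val_inv_eq_inv_val]
  field_simp
  ring

/-- Completing the square: `(2y + a₁x + a₃)²` is the two-torsion polynomial at `x`. -/
lemma HasCoords.sq_eq {P : W.toAffine.Point} {x y : K} (h : HasCoords P x y) :
    (2 * y + W.a₁ * x + W.a₃) ^ 2 = twoTorsionCubic W x := by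
  obtain ⟨n, -⟩ := h
  have := (Affine.equation_iff _ _).mp n.1
  simp only [twoTorsionCubic, b₂, b₄, b₆]
  linear_combination 4 * this

variable [DecidableEq K]

/-- The parameter `b` of the Tate normal form of `Q`, from the x-coordinates of `Q` and `2Q`. -/
noncomputable def tateB (Q : W.toAffine.Point) : K :=
  (xCoord (2 • Q) - xCoord Q) ^ 3 / twoTorsionCubic W (xCoord Q)

/-- The cross-ratio of `x(Q), x(2Q), x(3Q), x(4Q)`; for a point of order 13 this is the first
coordinate on the hyperelliptic model of `X₁(13)`. -/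
noncomputable def kappa (Q : W.toAffine.Point) : K :=
  (xCoord (3 • Q) - xCoord (2 • Q)) * (xCoord (4 • Q) - xCoord (2 • Q)) /
    ((xCoord (2 • Q) - xCoord Q) * (xCoord (3 • Q) - xCoord (4 • Q)))

lemma xCoord_vcHom (C : VariableChange K) {P : (C • W).toAffine.Point} (hP : P ≠ 0) :
    xCoord (vcHom W C P) = vcX C (xCoord P) := by
  obtain ⟨x, y, n, rfl⟩ := exists_hasCoords hP
  rfl

/-- `tateB` is invariant under changes of variables. -/
lemma tateB_vcHom (C : VariableChange K) {P : (C • W).toAffine.Point} (h1 : P ≠ 0)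
    (h2 : 2 • P ≠ 0) : tateB (vcHom W C P) = tateB P := by
  have hu : (C.u : K) ≠ 0 := C.u.ne_zero
  simp only [tateB, ← map_nsmul, xCoord_vcHom C h1, xCoord_vcHom C h2, twoTorsionCubic_vc]
  rw [show vcX C (xCoord (2 • P)) - vcX C (xCoord P) =
      (C.u : K) ^ 2 * (xCoord (2 • P) - xCoord P) by
    simp only [vcX]; ring, mul_pow, ← pow_mul]
  exact mul_div_mul_left _ _ (pow_ne_zero _ hu)

/-- `kappa` is invariant under changes of variables. -/
lemma kappa_vcHom (C : VariableChange K) {P : (C • W).toAffine.Point} (h1 : P ≠ 0)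
    (h2 : 2 • P ≠ 0) (h3 : 3 • P ≠ 0) (h4 : 4 • P ≠ 0) : kappa (vcHom W C P) = kappa P := by
  have hu : (C.u : K) ≠ 0 := C.u.ne_zero
  simp only [kappa, ← map_nsmul, xCoord_vcHom C h1, xCoord_vcHom C h2, xCoord_vcHom C h3,
    xCoord_vcHom C h4]
  have e : ∀ a b : K, vcX C a - vcX C b = (C.u : K) ^ 2 * (a - b) := fun a b => by
    simp only [vcX]; ring
  simp only [e]
  rw [mul_mul_mul_comm ((C.u : K) ^ 2) (xCoord (3 • P) - _),
    mul_mul_mul_comm ((C.u : K) ^ 2) (xCoord (2 • P) - xCoord P)]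
  exact mul_div_mul_left _ _ (mul_ne_zero (pow_ne_zero _ hu) (pow_ne_zero _ hu))

omit [DecidableEq K] in
lemma c₆_sq_div_Δ_variableChange (C : VariableChange K) (W : WeierstrassCurve K) :
    (C • W).c₆ ^ 2 / (C • W).Δ = W.c₆ ^ 2 / W.Δ := by
  rw [variableChange_c₆, variableChange_Δ, mul_pow, ← pow_mul]
  exact mul_div_mul_left _ _ (pow_ne_zero _ C.u⁻¹.ne_zero)

end Fermat.Agent.SmallExponents
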