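import Mathlib.Tactic.NormNum
import Fermat.Agent.SmallExponents.Invariants

/-!
# Points of order 5

Points of order 5: the invariant `b(Q) - 1/b(Q)` is the parameter of `X₀(5)`.
-/

namespace Fermat.Agent.SmallExponents

open WeierstrassCurve

variable {K : Type*} [Field K] [DecidableEq K] {W : WeierstrassCurve K}

/-- The invariant of a point of order 5: a coordinate on `X₀(5)` with cusps at `0` and `∞`. -/
noncomputable def tau5 (Q : W.toAffine.Point) : K := tateB Q - (tateB Q)⁻¹ - 11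

/-- On `X₀(5)`, `j - 1728 = (t² + 22t + 125) quadratic(t)²/t`. -/
def quadratic (t : K) : K := t ^ 2 + 4 * t - 1

/-- For a point `Q` of order 5, `tau5 Q` is unchanged by doubling, is nonzero, and satisfies the
equation of `X₀(5)` over the line of `c₆²/Δ`. -/
lemma tau5_spec {Q : W.toAffine.Point} (hQ : PrimeOrder Q 5) (hΔ : W.Δ ≠ 0) :
    tau5 (2 • Q) = tau5 Q ∧ tau5 Q ≠ 0 ∧
      W.c₆ ^ 2 / W.Δ * tau5 Q = (tau5 Q ^ 2 + 22 * tau5 Q + 125) * quadratic (tau5 Q) ^ 2 := by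
  obtain ⟨C, b, c, P, hT, hb, hP, rfl, hPo⟩ := exists_tate hQ (by norm_num)
  have h32 : xCoord (3 • P) = xCoord (2 • P) := by
    rw [show (3 • P : (C • W).toAffine.Point) = -(2 • P) by
      rw [eq_neg_iff_add_eq_zero, ← add_nsmul]; exact hPo.nsmul_eq, xCoord_neg]
  rw [(tate_three hT hb hP).xCoord_eq, (tate_two hT hb hP).xCoord_eq] at h32
  subst c
  have h2 := tate_two hT hb hP
  have n2 : 2 • P ≠ 0 := (hPo.nsmul (by decide)).ne_zero
  have n4 : 2 • (2 • P) ≠ 0 := ((hPo.nsmul (i := 2) (by decide)).nsmul (by decide)).ne_zero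
  have e1 : tateB (vcHom W C P) = b := by
    rw [tateB_vcHom C hPo.ne_zero n2, tateB, h2.xCoord_eq, hP.xCoord_eq, ← hP.sq_eq,
      hT.a₁_eq, hT.a₃_eq, div_eq_iff (by simp [hb])]
    ring
  have e2 : tateB (2 • vcHom W C P) = -b⁻¹ := by
    have x4 : xCoord (2 • (2 • P)) = 0 := by
      rw [show (2 • (2 • P) : (C • W).toAffine.Point) = -P by
        rw [eq_neg_iff_add_eq_zero, ← mul_nsmul, ← succ_nsmul]; exact hPo.nsmul_eq, xCoord_neg,
            hP.xCoord_eq]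
    rw [← map_nsmul, tateB_vcHom C n2 n4, tateB, x4, h2.xCoord_eq, ← h2.sq_eq, hT.a₁_eq, hT.a₃_eq,
      show 2 * (b * b) + (1 - b) * b + -b = b ^ 2 by ring]
    field_simp
    ring
  have hΔ' : (C • W).Δ ≠ 0 := by
    rw [variableChange_Δ]; exact mul_ne_zero (pow_ne_zero _ C.u⁻¹.ne_zero) hΔ
  have hdisc : (C • W).Δ = b ^ 5 * (b ^ 2 - 11 * b - 1) := by
    simp only [WeierstrassCurve.Δ, b₂, b₄, b₆, b₈, hT.a₁_eq, hT.a₂_eq, hT.a₃_eq, hT.a₄_eq, hT.a₆_eq]
    ring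
  have hq : b ^ 2 - 11 * b - 1 ≠ 0 := by
    intro e; apply hΔ'; rw [hdisc, e, mul_zero]
  refine ⟨?_, ?_, ?_⟩
  · rw [tau5, tau5, e1, e2, inv_neg, inv_inv]; ring
  · rw [tau5, e1]
    intro e
    apply hq
    field_simp at e
    linear_combination e
  · rw [tau5, e1, ← c₆_sq_div_Δ_variableChange C W, hdisc, quadratic]
    simp only [c₆, b₂, b₄, b₆, hT.a₁_eq, hT.a₂_eq, hT.a₃_eq, hT.a₄_eq, hT.a₆_eq]
    rw [div_mul_eq_mul_div, div_eq_iff (mul_ne_zero (pow_ne_zero _ hb) hq)]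
    field_simp
    ring

end Fermat.Agent.SmallExponents
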