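import Fermat.Agent.SmallExponents.Split

/-!
# Descent on a quartic

Infinite descent on `m⁴ + 2a m²n² + b n⁴ = w²` for `b = a² + 4 = q^e`, `a ≡ 3 (mod 8)`,
and the consequence for the rational points of `y² = x(x² + 2a x + b)`.
-/

namespace Fermat.Agent.SmallExponents

/-- Hypotheses on the parameters of `m⁴ + 2a m²n² + qᵉn⁴`: `qᵉ = a² + 4` is an odd power of an
odd prime `q`, `a ≡ 3 (mod 8)`, and `2g² ≡ af² (mod q)` forces `q ∣ f`. -/
structure QuarticData (a : ℤ) (q e : ℕ) : Prop where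
  hq : q.Prime
  hq2 : q ≠ 2
  ha : 0 < a
  ha8 : a % 8 = 3
  hb : (q : ℤ) ^ e = a ^ 2 + 4
  he : Odd e
  hres : ∀ f g : ℤ, (q : ℤ) ∣ 2 * g ^ 2 - a * f ^ 2 → (q : ℤ) ∣ f

/-- The numerical data of the descent attached to `X₀(5)`: `(a, q, e) = (11, 5, 3)`. -/
lemma quarticData_five : QuarticData 11 5 3 where
  hq := by norm_num
  hq2 := by norm_num
  ha := by norm_num
  ha8 := by norm_num
  hb := by norm_num
  he := by decide
  hres f g h := by
    rw [← ZMod.intCast_zmod_eq_zero_iff_dvd] at h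
    refine (ZMod.intCast_zmod_eq_zero_iff_dvd f 5).mp ?_
    push_cast at h
    have : ∀ x y : ZMod 5, 2 * y ^ 2 - 11 * x ^ 2 = 0 → x = 0 := by decide
    exact this _ _ h

/-- The numerical data of the descent attached to `X₀(13)`: `(a, q, e) = (3, 13, 1)`. -/
lemma quarticData_thirteen : QuarticData 3 13 1 where
  hq := by norm_num
  hq2 := by norm_num
  ha := by norm_num
  ha8 := by norm_num
  hb := by norm_num
  he := by decide
  hres f g h := by
    rw [← ZMod.intCast_zmod_eq_zero_iff_dvd] at h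
    refine (ZMod.intCast_zmod_eq_zero_iff_dvd f 13).mp ?_
    push_cast at h
    have : ∀ x y : ZMod 13, 2 * y ^ 2 - 3 * x ^ 2 = 0 → x = 0 := by decide
    exact this _ _ h

/-- `2a h²k² - qᵉh⁴ - k⁴` is negative for `h ≠ 0`, so not a square. -/
lemma not_quartic_neg {a : ℤ} {q e : ℕ} (D : QuarticData a q e) (h k t : ℤ) (h0 : h ≠ 0) :
    2 * a * (h ^ 2 * k ^ 2) - (q : ℤ) ^ e * h ^ 4 - k ^ 4 ≠ t ^ 2 := by
  intro ht
  have : 0 < h ^ 4 := by positivity
  rw [D.hb] at ht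
  nlinarith [sq_nonneg (k ^ 2 - a * h ^ 2), sq_nonneg t]

/-- The descent step for `f = 2f'`: a smaller solution. -/
lemma quartic_step_even {a : ℤ} {q e : ℕ} (D : QuarticData a q e) {m f' g : ℤ}
    (hcofg : Int.gcd (f' + f') g = 1) (hf0 : f' + f' ≠ 0)
    (hm : m ^ 2 = g ^ 4 - a * (f' + f') ^ 2 * g ^ 2 - (f' + f') ^ 4) :
    ∃ h k : ℤ, h ≠ 0 ∧ Int.gcd h k = 1 ∧ h.natAbs ≤ f'.natAbs ∧
      k ^ 4 + 2 * a * k ^ 2 * h ^ 2 + (q : ℤ) ^ e * h ^ 4 = g ^ 2 := by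
  have hb := D.hb
  set Z := g ^ 2 - 2 * a * f' ^ 2 with hZ
  have hgodd : Odd g := by
    rcases Int.even_or_odd g with hge | hgo
    · exact (not_prime_dvd_both hcofg Nat.prime_two ⟨f', by push_cast; ring⟩
        (by exact_mod_cast hge.two_dvd)).elim
    · exact hgo
  have hmZ : |m| ^ 2 = |Z| ^ 2 - 4 * (q : ℤ) ^ e * f' ^ 4 := by
    rw [sq_abs, sq_abs, hm, hb, hZ]; ring
  have hZodd : Odd Z := by
    rw [hZ]; exact (hgodd.pow).sub_even ⟨a * f' ^ 2, by ring⟩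
  have hmodd : Odd |m| := by
    have : Odd (|m| ^ 2) := by
      rw [hmZ]; exact ((odd_abs.mpr hZodd).pow).sub_even ⟨2 * (q : ℤ) ^ e * f' ^ 4, by ring⟩
    exact (Int.odd_pow' two_ne_zero).mp this
  obtain ⟨U, hU⟩ : (2 : ℤ) ∣ |Z| - |m| := ((odd_abs.mpr hZodd).sub_odd hmodd).two_dvd
  have hUV : U * (U + |m|) = (q : ℤ) ^ e * f' ^ 4 := by
    have : |Z| = 2 * U + |m| := by linarith
    rw [this] at hmZ
    linarith [show (2 * U + |m|) ^ 2 = 4 * (U * (U + |m|)) + |m| ^ 2 by ring]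
  have hf'0 : f' ≠ 0 := by rintro rfl; simp at hf0
  have hUnn : 0 ≤ U := by
    have hpos : 0 < (q : ℤ) ^ e * f' ^ 4 := by rw [hb]; positivity
    by_contra hlt
    nlinarith [abs_nonneg Z]
  have hgc : Int.gcd U (U + |m|) = 1 := int_gcd_eq_one_of fun r hr h1 h2 => by
    have hp := Nat.prime_iff_prime_int.mp hr
    have hrm : (r : ℤ) ∣ |m| := (Int.dvd_add_right h1).mp h2
    have hrZ : (r : ℤ) ∣ |Z| := by
      have : |Z| = U + (U + |m|) := by linarith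
      rw [this]; exact dvd_add h1 h2
    rw [dvd_abs] at hrZ
    have hrg : ¬(r : ℤ) ∣ f' := fun hrf => by
      have : (r : ℤ) ∣ g ^ 2 := by
        rw [show g ^ 2 = Z + 2 * a * f' ^ 2 by rw [hZ]; ring]
        exact dvd_add hrZ (Dvd.dvd.mul_left (dvd_pow hrf two_ne_zero) _)
      exact not_prime_dvd_both hcofg hr (dvd_add hrf hrf) (hp.dvd_of_dvd_pow this)
    rcases hp.dvd_mul.mp (hUV ▸ h1.mul_right (U + |m|)) with h | h
    · have hrq : r = q := by
        have := Nat.prime_dvd_prime_iff_eq hr D.hq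
        exact this.mp (Int.natCast_dvd_natCast.mp (hp.dvd_of_dvd_pow h))
      subst hrq
      have hX : (r : ℤ) ∣ 2 * g ^ 2 - a * (f' + f') ^ 2 := by
        rw [show 2 * g ^ 2 - a * (f' + f') ^ 2 = 2 * Z by rw [hZ]; ring]
        exact hrZ.mul_left _
      have h2f := D.hres _ _ hX
      rcases hp.dvd_mul.mp (show (r : ℤ) ∣ 2 * f' by rwa [two_mul]) with h' | h'
      · exact D.hq2 ((Nat.prime_dvd_prime_iff_eq hr Nat.prime_two).mp
          (by exact_mod_cast h'))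
      · exact hrg h'
    · exact hrg (hp.dvd_of_dvd_pow h)
  obtain ⟨h, k, hhkN, hhk, hcohk, hsum⟩ : ∃ h k : ℤ, f'.natAbs = h.natAbs * k.natAbs ∧
      f' ^ 2 = h ^ 2 * k ^ 2 ∧ Int.gcd h k = 1 ∧ |Z| = (q : ℤ) ^ e * h ^ 4 + k ^ 4 := by
    obtain ⟨h, k, h0, h1, h2, h3⟩ :=
      int_split_prime_pow_fourth D.hq hUnn (by positivity) hgc hUV
    refine ⟨h, k, h0, h1, h2, ?_⟩
    rcases h3 with ⟨r, s⟩ | ⟨r, s⟩ <;> linear_combination hU + r + s
  have hh0 : h ≠ 0 := by rintro rfl; simp at hhkN; exact hf'0 hhkN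
  have hk0 : k ≠ 0 := by rintro rfl; simp at hhkN; exact hf'0 hhkN
  rcases abs_choice Z with hs | hs
  · refine ⟨h, k, hh0, hcohk, hhkN ▸ Nat.le_mul_of_pos_right _ (Int.natAbs_pos.mpr hk0), ?_⟩
    rw [hs, hZ, hhk] at hsum; linear_combination -hsum
  · refine (not_quartic_neg D h k g hh0 ?_).elim
    rw [hs, hZ, hhk] at hsum; linear_combination hsum

/-- The descent step for odd `f`: `g` is even and there is a smaller solution. -/
lemma quartic_step_odd {a : ℤ} {q e : ℕ} (D : QuarticData a q e) {m f g : ℤ}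
    (hcofg : Int.gcd f g = 1) (hfodd : Odd f)
    (hm : m ^ 2 = g ^ 4 - a * f ^ 2 * g ^ 2 - f ^ 4) :
    Even g ∧ ∃ h k : ℤ, h ≠ 0 ∧ Int.gcd h k = 1 ∧ h.natAbs ≤ f.natAbs ∧
      k ^ 4 + 2 * a * k ^ 2 * h ^ 2 + (q : ℤ) ^ e * h ^ 4 = (2 * g) ^ 2 := by
  have hb := D.hb
  have hf0 : f ≠ 0 := fun h => by simp [h] at hfodd
  have hXm : (2 * |m|) ^ 2 = (2 * g ^ 2 - a * f ^ 2) ^ 2 - (q : ℤ) ^ e * f ^ 4 := by
    rw [mul_pow, sq_abs, hm, hb]; ring
  have hgeven : Even g := by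
    by_contra hg
    rw [Int.not_even_iff_odd] at hg
    have key : ∀ x : ℤ, Odd x → (x : ZMod 8) ^ 2 = 1 := by
      rintro x ⟨i, rfl⟩
      push_cast
      generalize (i : ZMod 8) = j
      revert j; decide
    have h8 : (m : ZMod 8) ^ 2 = ((g ^ 4 - a * f ^ 2 * g ^ 2 - f ^ 4 : ℤ) : ZMod 8) := by
      rw [← hm]; push_cast; rfl
    push_cast at h8
    rw [show (g : ZMod 8) ^ 4 = ((g : ZMod 8) ^ 2) ^ 2 by ring,
      show (f : ZMod 8) ^ 4 = ((f : ZMod 8) ^ 2) ^ 2 by ring, key f hfodd, key g hg] at h8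
    have ha' : (a : ZMod 8) = 3 := by
      rw [← ZMod.intCast_mod a 8]; norm_num [D.ha8]
    rw [ha'] at h8
    revert h8
    generalize (m : ZMod 8) = j
    revert j; decide
  set X := 2 * g ^ 2 - a * f ^ 2 with hX
  have hUV : (|X| - 2 * |m|) * (|X| + 2 * |m|) = (q : ℤ) ^ e * f ^ 4 := by
    linear_combination -hXm + sq_abs X
  have hUnn : 0 ≤ |X| - 2 * |m| := by
    have hpos : 0 < (q : ℤ) ^ e * f ^ 4 := by rw [hb]; positivity
    by_contra hlt
    nlinarith [abs_nonneg X, abs_nonneg m]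
  have hXodd : Odd |X| := by
    refine odd_abs.mpr ?_
    rw [hX]
    have : Odd a := Int.odd_iff.mpr (by have := D.ha8; omega)
    exact (even_two.mul_right _).sub_odd (this.mul hfodd.pow)
  have hgc : Int.gcd (|X| - 2 * |m|) (|X| + 2 * |m|) = 1 := int_gcd_eq_one_of fun r hr h1 h2 => by
    have hp := Nat.prime_iff_prime_int.mp hr
    have hr2 : r ≠ 2 := by
      rintro rfl
      have : Odd (|X| - 2 * |m|) := hXodd.sub_even (even_two.mul_right _)
      exact Int.not_even_iff_odd.mpr this (even_iff_two_dvd.mpr (by exact_mod_cast h1))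
    have hrX : (r : ℤ) ∣ X := by
      have : (r : ℤ) ∣ 2 * |X| := by
        rw [show 2 * |X| = (|X| - 2 * |m|) + (|X| + 2 * |m|) by ring]; exact dvd_add h1 h2
      rcases hp.dvd_mul.mp this with h | h
      · exact (hr2 ((Nat.prime_dvd_prime_iff_eq hr Nat.prime_two).mp
          (by exact_mod_cast h))).elim
      · exact (dvd_abs _ _).mp h
    have hrf : (r : ℤ) ∣ f := by
      rcases hp.dvd_mul.mp (hUV ▸ h1.mul_right (|X| + 2 * |m|)) with h | h
      · have hrq : r = q := (Nat.prime_dvd_prime_iff_eq hr D.hq).mp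
          (Int.natCast_dvd_natCast.mp (hp.dvd_of_dvd_pow h))
        subst hrq
        exact D.hres _ _ hrX
      · exact hp.dvd_of_dvd_pow h
    have : (r : ℤ) ∣ 2 * g ^ 2 := by
      rw [show 2 * g ^ 2 = X + a * f ^ 2 by rw [hX]; ring]
      exact dvd_add hrX (Dvd.dvd.mul_left (dvd_pow hrf two_ne_zero) _)
    rcases hp.dvd_mul.mp this with h | h
    · exact hr2 ((Nat.prime_dvd_prime_iff_eq hr Nat.prime_two).mp (by exact_mod_cast h))
    · exact not_prime_dvd_both hcofg hr hrf (hp.dvd_of_dvd_pow h)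
  obtain ⟨h, k, hhkN, hhk, hcohk, hsum⟩ : ∃ h k : ℤ, f.natAbs = h.natAbs * k.natAbs ∧
      f ^ 2 = h ^ 2 * k ^ 2 ∧ Int.gcd h k = 1 ∧ 2 * |X| = (q : ℤ) ^ e * h ^ 4 + k ^ 4 := by
    obtain ⟨h, k, h0, h1, h2, h3⟩ :=
      int_split_prime_pow_fourth D.hq hUnn (by positivity) hgc hUV
    refine ⟨h, k, h0, h1, h2, ?_⟩
    rcases h3 with ⟨r, s⟩ | ⟨r, s⟩ <;> linear_combination r + s
  have hh0 : h ≠ 0 := by rintro rfl; simp at hhkN; exact hf0 hhkN
  have hk0 : k ≠ 0 := by rintro rfl; simp at hhkN; exact hf0 hhkN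
  rcases abs_choice X with hs | hs
  · refine ⟨hgeven, h, k, hh0, hcohk, hhkN ▸ Nat.le_mul_of_pos_right _ (Int.natAbs_pos.mpr hk0),
      ?_⟩
    rw [hs, hX, hhk] at hsum; linear_combination -hsum
  · refine (not_quartic_neg D h k (2 * g) hh0 ?_).elim
    rw [hs, hX, hhk] at hsum; linear_combination hsum

/-- `m⁴ + 2a m²n² + qᵉ n⁴ = w²` has no coprime solution with `n ≠ 0` (infinite descent). -/
lemma no_quartic {a : ℤ} {q e : ℕ} (D : QuarticData a q e) (m n w : ℤ) (hn : n ≠ 0)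
    (hco : Int.gcd m n = 1) :
    m ^ 4 + 2 * a * m ^ 2 * n ^ 2 + (q : ℤ) ^ e * n ^ 4 ≠ w ^ 2 := by
  induction hN : n.natAbs using Nat.strong_induction_on generalizing m n w with
  | _ N ih =>
  intro heq
  have hb := D.hb
  have ha := D.ha
  -- first factorisation
  set A := m ^ 2 + a * n ^ 2 with hA
  have hn4 : 0 < n ^ 4 := by positivity
  have hApos : 0 < A := by positivity
  have hw : |w| ^ 2 = A ^ 2 + 4 * n ^ 4 := by rw [sq_abs, ← heq, hb, hA]; ring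
  obtain ⟨P, hP⟩ : (2 : ℤ) ∣ |w| - A := by
    have h2 : (2 : ℤ) ∣ (|w| - A) * (|w| + A) := ⟨2 * n ^ 4, by linear_combination hw⟩
    rcases Int.prime_two.dvd_mul.mp h2 with h | h <;> omega
  have hPS : P * (P + A) = n ^ 4 := by
    have : |w| = 2 * P + A := by linarith
    rw [this] at hw
    linarith [show (2 * P + A) ^ 2 = 4 * (P * (P + A)) + A ^ 2 by ring]
  have hPpos : 0 < P := by nlinarith [abs_nonneg w]
  have hgcd : Int.gcd P (P + A) = 1 := int_gcd_eq_one_of fun r hr h1 h2 => by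
    have hrA : (r : ℤ) ∣ A := (Int.dvd_add_right h1).mp h2
    have hrn : (r : ℤ) ∣ n :=
      (Nat.prime_iff_prime_int.mp hr).dvd_of_dvd_pow (hPS ▸ h1.mul_right (P + A))
    have hrm : (r : ℤ) ∣ m ^ 2 := (Int.dvd_add_left (Dvd.dvd.mul_left
        (dvd_pow hrn two_ne_zero) a)).mp
      (by rwa [hA] at hrA)
    exact not_prime_dvd_both hco hr ((Nat.prime_iff_prime_int.mp hr).dvd_of_dvd_pow hrm) hrn
  obtain ⟨f, g, hfgN, hfg, hcofg, hS⟩ : ∃ f g : ℤ, n.natAbs = f.natAbs * g.natAbs ∧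
      n ^ 2 = f ^ 2 * g ^ 2 ∧ Int.gcd f g = 1 ∧ g ^ 4 - f ^ 4 = A := by
    obtain ⟨f, g, h0, h1, h2, h3⟩ := int_split_prime_pow_fourth (e := 0) (z := n) Nat.prime_two
      hPpos.le (by linarith) hgcd (by simpa using hPS)
    rcases h3 with ⟨r, s⟩ | ⟨r, s⟩
    · exact ⟨f, g, h0, h1, h2, by linear_combination r - s⟩
    · exact ⟨g, f, by rw [h0, mul_comm], by rw [h1]; ring, by rw [Int.gcd_comm, h2],
        by linear_combination s - r⟩
  have hf0 : f ≠ 0 := by rintro rfl; simp at hfgN; exact hn hfgN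
  have hg0 : g ≠ 0 := by rintro rfl; simp at hfgN; exact hn hfgN
  have hm : m ^ 2 = g ^ 4 - a * f ^ 2 * g ^ 2 - f ^ 4 := by
    rw [hA, hfg] at hS; linear_combination -hS
  -- descend
  rcases Int.even_or_odd f with ⟨f', rfl⟩ | hfodd
  · obtain ⟨h, k, h0, hc, hle, heq'⟩ := quartic_step_even D hcofg hf0 hm
    refine ih _ ?_ k h g h0 (by rw [Int.gcd_comm]; exact hc) rfl heq'
    calc h.natAbs ≤ f'.natAbs := hle
      _ < (f' + f').natAbs := by omega
      _ ≤ N := hN ▸ hfgN ▸ Nat.le_mul_of_pos_right _ (Int.natAbs_pos.mpr hg0)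
  · obtain ⟨hgeven, h, k, h0, hc, hle, heq'⟩ := quartic_step_odd D hcofg hfodd hm
    refine ih _ ?_ k h (2 * g) h0 (by rw [Int.gcd_comm]; exact hc) rfl heq'
    calc h.natAbs ≤ f.natAbs := hle
      _ < f.natAbs * g.natAbs := by
          refine lt_mul_of_one_lt_right (Int.natAbs_pos.mpr hf0) ?_
          obtain ⟨i, rfl⟩ := hgeven
          omega
      _ = N := hN ▸ hfgN.symm

/-- No rational `r` with `r⁴ + 2a r² + b` a square. -/
lemma no_quartic_rat {a : ℤ} {q e : ℕ} (D : QuarticData a q e) (r s : ℚ) :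
    r ^ 4 + 2 * a * r ^ 2 + (q : ℚ) ^ e ≠ s ^ 2 := by
  intro h
  have hd : (r.den : ℚ) ≠ 0 := by exact_mod_cast r.den_ne_zero
  have hr := r.num_div_den
  have key : IsSquare ((r.num ^ 4 + 2 * a * r.num ^ 2 * (r.den : ℤ) ^ 2
      + (q : ℤ) ^ e * (r.den : ℤ) ^ 4 : ℤ) : ℚ) := by
    refine ⟨s * (r.den : ℚ) ^ 2, ?_⟩
    have hn : (r.num : ℚ) = r * r.den := (Rat.mul_den_eq_num r).symm
    push_cast
    rw [hn]
    linear_combination (r.den : ℚ) ^ 4 * h
  rw [Rat.isSquare_intCast_iff] at key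
  obtain ⟨w, hw⟩ := key
  exact no_quartic D r.num r.den w (by exact_mod_cast r.den_ne_zero)
    (by simpa [Int.gcd, Int.natAbs_natCast] using r.reduced) (by rw [hw, sq])

/-- If `x(x² + 2ax + qᵉ)` is a square for a positive rational `x` then `x` or `qᵉ/x` is one. -/
lemma isSquare_or_isSquare_div {a : ℤ} {q e : ℕ} (D : QuarticData a q e) {x y : ℚ} (hxpos : 0 < x)
    (h : y ^ 2 = x * (x ^ 2 + 2 * a * x + (q : ℚ) ^ e)) :
    IsSquare x ∨ IsSquare ((q : ℚ) ^ e / x) := by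
  set P := x.num
  set Q := (x.den : ℤ)
  have hQ0 : 0 < Q := Int.natCast_pos.mpr x.den_pos
  have hP0 : 0 < P := Rat.num_pos.mpr hxpos
  have hPQ : Int.gcd P Q = 1 := by simpa [P, Q, Int.gcd] using x.reduced
  set F := P ^ 2 + 2 * a * P * Q + (q : ℤ) ^ e * Q ^ 2 with hF
  have hsq : IsSquare (Q * (P * F)) := by
    rw [← Rat.isSquare_intCast_iff]
    refine ⟨y * (Q : ℚ) ^ 2, ?_⟩
    have hn : (P : ℚ) = x * Q := (Rat.mul_den_eq_num x).symm
    rw [hF]
    push_cast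
    rw [hn]
    linear_combination -(Q : ℚ) ^ 4 * h
  obtain ⟨w, hw⟩ := hsq
  have hQPF : Int.gcd Q (P * F) = 1 := int_gcd_eq_one_of fun r hr h1 h2 => by
    have hp := Nat.prime_iff_prime_int.mp hr
    have hrP : ¬(r : ℤ) ∣ P := fun hh => not_prime_dvd_both hPQ hr hh h1
    rcases hp.dvd_mul.mp h2 with hh | hh
    · exact hrP hh
    · apply hrP
      apply hp.dvd_of_dvd_pow (n := 2)
      rw [show P ^ 2 = F - Q * (2 * a * P + (q : ℤ) ^ e * Q) by rw [hF]; ring]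
      exact dvd_sub hh (h1.mul_right _)
  have sq_of : ∀ {u v z : ℤ}, 0 < u → Int.gcd u v = 1 → u * v = z * z → IsSquare u := by
    intro u v z hu hc huv
    rcases Int.sq_of_gcd_eq_one hc (huv.trans (sq z).symm) with ⟨c, hc' | hc'⟩
    · exact ⟨c, by rw [hc', sq]⟩
    · nlinarith [sq_nonneg c]
  obtain ⟨Q₀, hQ₀⟩ := sq_of hQ0 hQPF hw
  obtain ⟨P', hP'1, k, hk⟩ : ∃ P' : ℤ, ¬(q : ℤ) ∣ P' ∧ ∃ k : ℕ, P = (q : ℤ) ^ k * P' := by
    obtain ⟨k, P', h1, h2⟩ := Nat.exists_eq_pow_mul_and_not_dvd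
        (by omega : P.natAbs ≠ 0) q D.hq.ne_one
    refine ⟨P', by exact_mod_cast h1, k, ?_⟩
    rw [← Int.natAbs_of_nonneg hP0.le, h2]; push_cast; rfl
  have hq0 : (0 : ℤ) < (q : ℤ) := by exact_mod_cast D.hq.pos
  have hP'pos : 0 < P' := by
    by_contra hh; nlinarith [pow_pos hq0 k]
  have hgcd' : Int.gcd P' ((q : ℤ) ^ k * F) = 1 := int_gcd_eq_one_of fun r hr h1 h2 => by
    have hp := Nat.prime_iff_prime_int.mp hr
    have hrP : (r : ℤ) ∣ P := by rw [hk]; exact h1.mul_left _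
    have hrq : r ≠ q := by rintro rfl; exact hP'1 h1
    have hnq : ¬(r : ℤ) ∣ (q : ℤ) := fun hh =>
      hrq ((Nat.prime_dvd_prime_iff_eq hr D.hq).mp (by exact_mod_cast hh))
    rcases hp.dvd_mul.mp h2 with hh | hh
    · exact hnq (hp.dvd_of_dvd_pow hh)
    · have : (r : ℤ) ∣ (q : ℤ) ^ e * Q ^ 2 := by
        rw [show (q : ℤ) ^ e * Q ^ 2 = F - P * (P + 2 * a * Q) by rw [hF]; ring]
        exact dvd_sub hh (hrP.mul_right _)
      rcases hp.dvd_mul.mp this with h3 | h3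
      · exact hnq (hp.dvd_of_dvd_pow h3)
      · exact not_prime_dvd_both hPQ hr hrP (hp.dvd_of_dvd_pow h3)
  have hPFsq : IsSquare (P * F) := by
    have hQ0' : Q₀ ≠ 0 := by rintro rfl; simp [hQ₀] at hQ0
    rw [hQ₀] at hw
    have hd : Q₀ ∣ w := (Int.pow_dvd_pow_iff two_ne_zero).mp ⟨P * F, by rw [sq, sq, hw]⟩
    obtain ⟨v, rfl⟩ := hd
    refine ⟨v, mul_left_cancel₀ (mul_ne_zero hQ0' hQ0') ?_⟩
    linear_combination hw
  obtain ⟨z, hz⟩ := hPFsq
  obtain ⟨P₀, hP₀⟩ := sq_of hP'pos hgcd' (z := z) (by rw [← hz, hk]; ring)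
  have hxQ : x = (q : ℚ) ^ k * (P₀ : ℚ) ^ 2 / (Q₀ : ℚ) ^ 2 := by
    rw [← Rat.num_div_den x]
    rw [show (x.num : ℚ) = ((P : ℤ) : ℚ) from rfl, show (x.den : ℚ) = ((Q : ℤ) : ℚ) by simp [Q],
      hk, hP₀, hQ₀]
    push_cast; ring
  rcases Nat.even_or_odd k with ⟨i, rfl⟩ | hkodd
  · left
    exact ⟨(q : ℚ) ^ i * P₀ / Q₀, by rw [hxQ]; ring⟩
  · right
    have hq0' : (q : ℚ) ≠ 0 := by exact_mod_cast D.hq.ne_zero
    obtain ⟨i, hi⟩ := D.he.add_odd hkodd
    refine ⟨(q : ℚ) ^ i * Q₀ / ((q : ℚ) ^ k * P₀), ?_⟩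
    rw [hxQ]
    have hP00 : (P₀ : ℚ) ≠ 0 := by
      have : P₀ ≠ 0 := by rintro rfl; simp [hP₀] at hP'pos
      exact_mod_cast this
    have hQ00 : (Q₀ : ℚ) ≠ 0 := by
      have : Q₀ ≠ 0 := by rintro rfl; simp [hQ₀] at hQ0
      exact_mod_cast this
    field_simp
    rw [← pow_add, ← pow_mul, mul_two, hi]

/-- `y² = x(x² + 2ax + qᵉ)` has no rational point with `x ≠ 0`. -/
lemma no_cubic_rat {a : ℤ} {q e : ℕ} (D : QuarticData a q e) {x y : ℚ} (hx : x ≠ 0) :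
    y ^ 2 ≠ x * (x ^ 2 + 2 * a * x + (q : ℚ) ^ e) := by
  intro h
  have hb : (q : ℚ) ^ e = (a : ℚ) ^ 2 + 4 := by exact_mod_cast D.hb
  have hbpos : (0 : ℚ) < (q : ℚ) ^ e := by rw [hb]; positivity
  have hxpos : 0 < x := by
    rcases lt_or_gt_of_ne hx with hlt | hgt
    · exfalso
      have : 0 < x ^ 2 + 2 * (a : ℚ) * x + (q : ℚ) ^ e := by
        rw [hb]; nlinarith [sq_nonneg (x + a)]
      nlinarith [sq_nonneg y]
    · exact hgt
  rcases isSquare_or_isSquare_div D hxpos h with ⟨r, hr⟩ | ⟨r, hr⟩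
  · have hr0 : r ≠ 0 := by rintro rfl; simp at hr; exact hx hr
    apply no_quartic_rat D r (y / r)
    rw [div_pow, eq_div_iff (pow_ne_zero _ hr0)]
    rw [hr] at h
    linear_combination -h
  · have hr0 : r ≠ 0 := by
      rintro rfl
      rw [mul_zero, div_eq_zero_iff] at hr
      rcases hr with hr | hr
      · exact hbpos.ne' hr
      · exact hx hr
    apply no_quartic_rat D r ((q : ℚ) ^ e * y / (x ^ 2 * r))
    have hxr : x = (q : ℚ) ^ e / (r * r) := by rw [← hr]; field_simp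
    rw [div_pow, eq_div_iff (pow_ne_zero _ (mul_ne_zero (pow_ne_zero _ hx) hr0))]
    rw [mul_pow ((q : ℚ) ^ e) y, h, hxr]
    field_simp
    ring

end Fermat.Agent.SmallExponents
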