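import Fermat.Agent.SmallExponents.Split

/-!
# Exponent 7

Fermat's last theorem for exponent 7 (after Lebesgue and Genocchi): the elementary symmetric
functions of a solution give a point of `(m² + 147e²)² - w² = 21952e⁴`, which has none with `e ≠ 0`.
-/

namespace Fermat.Agent.SmallExponents

lemma seven_dvd_of_sq_add_fourth {x y : ℤ} (h : (7 : ℤ) ∣ x ^ 2 + y ^ 4) :
    (7 : ℤ) ∣ x ∧ (7 : ℤ) ∣ y := by
  have h' := (ZMod.intCast_zmod_eq_zero_iff_dvd _ 7).mpr (by exact_mod_cast h)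
  push_cast at h'
  have key : ∀ a b : ZMod 7, a ^ 2 + b ^ 4 = 0 → a = 0 ∧ b = 0 := by decide
  obtain ⟨ha, hb⟩ := key _ _ h'
  exact ⟨by exact_mod_cast (ZMod.intCast_zmod_eq_zero_iff_dvd x 7).mp ha,
    by exact_mod_cast (ZMod.intCast_zmod_eq_zero_iff_dvd y 7).mp hb⟩

/-- `(m² + 147e²)² - w² = 21952e⁴` has no solution with `m` and `e` odd (modulo 128). -/
lemma no_seven_odd {m e w : ℤ} (hm : Odd m) (he : Odd e) :
    (m ^ 2 + 147 * e ^ 2) ^ 2 - w ^ 2 ≠ 21952 * e ^ 4 := by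
  intro h
  obtain ⟨i, hi⟩ := hm
  obtain ⟨j, hj⟩ := he
  obtain ⟨u, hu⟩ : Even (i * (i + 1)) := Int.even_mul_succ_self i
  obtain ⟨v, hv⟩ : Even (j * (j + 1)) := Int.even_mul_succ_self j
  have hA : m ^ 2 + 147 * e ^ 2 = 8 * (u + 147 * v + 18) + 4 := by
    rw [hi, hj]; linear_combination 4 * hu + 588 * hv
  obtain ⟨l, hl⟩ : Odd (343 * e ^ 4) :=
    (show Odd (343 : ℤ) by decide).mul (Odd.pow ⟨j, hj⟩)
  have hw : (w : ZMod 128) ^ 2 = 80 := by
    have h' : w ^ 2 = (8 * (u + 147 * v + 18) + 4) ^ 2 - 64 * (2 * l + 1) := by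
      rw [← hA, ← hl]; linarith
    have : ((w ^ 2 : ℤ) : ZMod 128) = (((8 * (u + 147 * v + 18) + 4) ^ 2 -
        64 * (2 * l + 1) : ℤ) : _) :=
      congrArg _ h'
    push_cast at this
    rw [this]
    generalize ((u : ZMod 128) + 147 * (v : ZMod 128) + 18) = z
    generalize (l : ZMod 128) = l'
    have e0 : (128 : ZMod 128) = 0 := by decide
    obtain ⟨t, ht⟩ : ∃ t, z ^ 2 + z = 2 * t := by revert z; decide +kernel
    linear_combination 64 * ht + (t - l' - 1) * e0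
  revert hw
  generalize (w : ZMod 128) = x
  revert x; decide +kernel

/-- Coprime nonnegative integers with product `7³z⁴` and difference `±D` split `z` and express `D`
as `±(343h⁴ - k⁴)`. -/
lemma split_seven_diff {U V D z : ℤ} (hU : 0 ≤ U) (hV : 0 ≤ V) (hgc : Int.gcd U V = 1)
    (h : U * V = ((7 : ℕ) : ℤ) ^ 3 * z ^ 4) (hD : V - U = |D|) :
    ∃ h k : ℤ, z.natAbs = h.natAbs * k.natAbs ∧ z ^ 2 = h ^ 2 * k ^ 2 ∧ Int.gcd h k = 1 ∧
      (D = 343 * h ^ 4 - k ^ 4 ∨ D = k ^ 4 - 343 * h ^ 4) := by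
  obtain ⟨h, k, h0, h1, h2, h3⟩ := int_split_prime_pow_fourth (by norm_num) hU hV hgc h
  refine ⟨h, k, h0, h1, h2, ?_⟩
  push_cast at h3
  rcases h3 with ⟨r, s⟩ | ⟨r, s⟩ <;> rcases abs_choice D with hc | hc
  · right; linear_combination s - r - hD - hc
  · left; linear_combination r - s + hD + hc
  · left; linear_combination r - s - hD - hc
  · right; linear_combination s - r + hD + hc

/-- If `(2ⁿm)² = X² + 7³a⁴` with `n ≠ 0`, `X` odd, `a ∣ e` and `gcd(m, 7e) = 1`, then `a` splits and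
`2X = ±(343h⁴ - k⁴)`. -/
lemma split_seven_odd {m e a X : ℤ} {n : ℕ} (hn : n ≠ 0) (hco : Int.gcd m (7 * e) = 1)
    (hae : a ∣ e) (hX : Odd X) (hmX : (2 ^ n * m) ^ 2 = X ^ 2 + 343 * a ^ 4) :
    ∃ h k : ℤ, a.natAbs = h.natAbs * k.natAbs ∧ a ^ 2 = h ^ 2 * k ^ 2 ∧ Int.gcd h k = 1 ∧
      (2 * X = 343 * h ^ 4 - k ^ 4 ∨ 2 * X = k ^ 4 - 343 * h ^ 4) := by
  have heven : Even (2 ^ n * |m| : ℤ) := (even_two.pow_of_ne_zero hn).mul_right _
  have hUV : (2 ^ n * |m| - |X|) * (2 ^ n * |m| + |X|) = ((7 : ℕ) : ℤ) ^ 3 * a ^ 4 := by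
    push_cast
    linear_combination hmX + (2 ^ n) ^ 2 * sq_abs m - sq_abs X
  have hnn : 0 ≤ 2 ^ n * |m| - |X| := by
    have : (0 : ℤ) ≤ a ^ 4 := by positivity
    by_contra hlt
    have : (0 : ℤ) ≤ 2 ^ n * |m| := by positivity
    push_cast at hUV
    nlinarith [abs_nonneg X]
  refine split_seven_diff (D := 2 * X) hnn (by positivity) (int_gcd_eq_one_of fun r hr h1 h2 => ?_)
    hUV (by rw [abs_mul, abs_two]; ring)
  have hp := Nat.prime_iff_prime_int.mp hr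
  have hr2 : ¬(r : ℤ) ∣ 2 := fun h => by
    obtain rfl : r = 2 := (Nat.prime_dvd_prime_iff_eq hr Nat.prime_two).mp (by exact_mod_cast h)
    exact Int.not_even_iff_odd.mpr (heven.sub_odd (odd_abs.mpr hX)) (even_iff_two_dvd.mpr h1)
  have hrm : (r : ℤ) ∣ 2 ^ (n + 1) * |m| := by
    rw [show (2 : ℤ) ^ (n + 1) * |m| = (2 ^ n * |m| - |X|) + (2 ^ n * |m| + |X|) by ring]
    exact dvd_add h1 h2
  refine not_prime_dvd_both hco hr
    ((dvd_abs _ _).mp ((hp.dvd_mul.mp hrm).resolve_left fun h => hr2 (hp.dvd_of_dvd_pow h))) ?_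
  rcases hp.dvd_mul.mp (hUV ▸ h1.mul_right (2 ^ n * |m| + |X|)) with h | h
  · exact dvd_mul_of_dvd_left (by exact_mod_cast hp.dvd_of_dvd_pow h) _
  · exact dvd_mul_of_dvd_right ((hp.dvd_of_dvd_pow h).trans hae) _

/-- `G² - 294h²k² = 343h⁴ - k⁴` is impossible with `7 ∤ G`. -/
lemma no_seven_neg {G H K : ℤ} (hG : ¬(7 : ℤ) ∣ G)
    (hGeq : G ^ 2 - 294 * H ^ 2 * K ^ 2 = 343 * H ^ 4 - K ^ 4) : False :=
  hG (seven_dvd_of_sq_add_fourth (y := K)
    ⟨49 * H ^ 4 + 42 * H ^ 2 * K ^ 2, by linear_combination hGeq⟩).1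

/-- In the descent, the case `a = 4f'`: `m² = b⁴ - 147(2f')²b² + 5488(2f')⁴` gives a smaller
solution. -/
lemma no_seven_step {m e b f' : ℤ} (hco : Int.gcd m (7 * e) = 1) (hbodd : Odd b)
    (h7b : ¬(7 : ℤ) ∣ b) (hfdvd : f' ∣ e) (hf'0 : f' ≠ 0)
    (hm : m ^ 2 = b ^ 4 - 147 * (f' + f') ^ 2 * b ^ 2 + 5488 * (f' + f') ^ 4) :
    ∃ h k : ℤ, h ≠ 0 ∧ h.natAbs ≤ f'.natAbs ∧ Int.gcd k (7 * h) = 1 ∧
      (k ^ 2 + 147 * h ^ 2) ^ 2 - b ^ 2 = 21952 * h ^ 4 := by
  have p7 : Nat.Prime 7 := by norm_num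
  set Z := b ^ 2 - 294 * f' ^ 2 with hZ
  have hf'e : ∀ r : ℤ, r ∣ f' → r ∣ 7 * e := fun r hr =>
    dvd_mul_of_dvd_right (hr.trans hfdvd) _
  have hZodd : Odd Z := by rw [hZ]; exact hbodd.pow.sub_even ⟨147 * f' ^ 2, by ring⟩
  have hmZ : |m| ^ 2 = |Z| ^ 2 + 1372 * f' ^ 4 := by rw [sq_abs, sq_abs, hm, hZ]; ring
  have hmodd : Odd |m| := by
    have : Odd (|m| ^ 2) := by
      rw [hmZ]; exact (odd_abs.mpr hZodd).pow.add_even ⟨686 * f' ^ 4, by ring⟩
    exact (Int.odd_pow' two_ne_zero).mp this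
  obtain ⟨U', hU'⟩ : (2 : ℤ) ∣ |m| - |Z| := (hmodd.sub_odd (odd_abs.mpr hZodd)).two_dvd
  have hUV' : U' * (U' + |Z|) = ((7 : ℕ) : ℤ) ^ 3 * f' ^ 4 := by
    have : |m| = 2 * U' + |Z| := by linarith
    rw [this] at hmZ
    push_cast
    linarith [show (2 * U' + |Z|) ^ 2 = 4 * (U' * (U' + |Z|)) + |Z| ^ 2 by ring]
  have hU'nn : 0 ≤ U' := by
    have : (0 : ℤ) < f' ^ 4 := by positivity
    by_contra hlt
    push_cast at hUV'
    nlinarith [abs_nonneg m]
  have hgc' : Int.gcd U' (U' + |Z|) = 1 := int_gcd_eq_one_of fun r hr h1 h2 => by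
    have hp := Nat.prime_iff_prime_int.mp hr
    have hrm : (r : ℤ) ∣ m := by
      rw [← dvd_abs, show |m| = U' + (U' + |Z|) by linarith]; exact dvd_add h1 h2
    refine not_prime_dvd_both hco hr hrm ?_
    rcases hp.dvd_mul.mp (hUV' ▸ h1.mul_right (U' + |Z|)) with h | h
    · exact dvd_mul_of_dvd_left (by exact_mod_cast hp.dvd_of_dvd_pow h) _
    · exact hf'e _ (hp.dvd_of_dvd_pow h)
  obtain ⟨h, k, hhkN, hhk, hcohk, hs⟩ :=
    split_seven_diff (D := Z) hU'nn (by positivity) hgc' hUV' (add_sub_cancel_left _ _)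
  rw [hZ, hhk] at hs
  rcases hs with hs | hs
  · exact (no_seven_neg (H := h) (K := k) h7b (by linear_combination hs)).elim
  · have hh0 : h ≠ 0 := by rintro rfl; simp at hhkN; exact hf'0 hhkN
    have hk0 : k ≠ 0 := by rintro rfl; simp at hhkN; exact hf'0 hhkN
    refine ⟨h, k, hh0, hhkN ▸ Nat.le_mul_of_pos_right _ (Int.natAbs_pos.mpr hk0),
      int_gcd_eq_one_of fun r hr h1 h2 => ?_, by linear_combination -hs⟩
    rcases (Nat.prime_iff_prime_int.mp hr).dvd_mul.mp h2 with h2 | h2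
    · have : r = 7 := (Nat.prime_dvd_prime_iff_eq hr p7).mp (by exact_mod_cast h2)
      subst this
      refine h7b ((Nat.prime_iff_prime_int.mp p7).dvd_of_dvd_pow (n := 2) ?_)
      rw [show b ^ 2 = k * (294 * h ^ 2 * k + k ^ 3) - 343 * h ^ 4 by linear_combination hs]
      exact dvd_sub (h1.mul_right _) ⟨49 * h ^ 4, by push_cast; ring⟩
    · exact not_prime_dvd_both hcohk hr h2 h1

/-- In the descent, the case `a = 2f` with `f` odd: `m² = b⁴ - 147f²b² + 5488f⁴` is impossible. -/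
lemma no_seven_two_mul {m e b f : ℤ} (hco : Int.gcd m (7 * e) = 1)
    (h7b : ¬(7 : ℤ) ∣ b) (hfdvd : f ∣ e) (hfodd : Odd f)
    (hm : m ^ 2 = b ^ 4 - 147 * f ^ 2 * b ^ 2 + 5488 * f ^ 4) : False := by
  have p7 : Nat.Prime 7 := by norm_num
  set X := 2 * b ^ 2 - 147 * f ^ 2 with hX
  have hXodd : Odd X := by
    rw [hX]; exact (even_two.mul_right _).sub_odd ((show Odd (147 : ℤ) by decide).mul hfodd.pow)
  obtain ⟨h, k, hhkN, hhk, -, hs⟩ := split_seven_odd one_ne_zero hco hfdvd hXodd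
    (by rw [mul_pow, hm, hX]; ring)
  rw [hX, hhk] at hs
  rcases hs with hs | hs
  · refine no_seven_neg (G := 2 * b) (H := h) (K := k) (fun h7 => h7b ?_)
      (by linear_combination hs)
    rcases (Nat.prime_iff_prime_int.mp p7).dvd_mul.mp h7 with h | h
    · norm_num at h
    · exact h
  · have hodd : Odd h.natAbs ∧ Odd k.natAbs := Nat.odd_mul.mp (hhkN ▸ Int.natAbs_odd.mpr hfodd)
    exact no_seven_odd (w := 2 * b) (Int.natAbs_odd.mp hodd.2) (Int.natAbs_odd.mp hodd.1)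
      (by linear_combination -hs)

/-- In the descent, the case of odd `a`: `m² = 343a⁴ - 147f²a² + 16f⁴` is impossible. -/
lemma no_seven_a_odd {m e a f : ℤ} (hco : Int.gcd m (7 * e) = 1) (haodd : Odd a)
    (haedvd : a ∣ e) (hm : m ^ 2 = 343 * a ^ 4 - 147 * f ^ 2 * a ^ 2 + 16 * f ^ 4) : False := by
  have p7 : Nat.Prime 7 := by norm_num
  have h7m : ¬(7 : ℤ) ∣ m := fun h =>
    not_prime_dvd_both hco p7 (by exact_mod_cast h) ⟨e, by push_cast; ring⟩
  set X := 32 * f ^ 2 - 147 * a ^ 2 with hX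
  have hXodd : Odd X := by
    rw [hX]; exact ((show Even (32 : ℤ) by decide).mul_right _).sub_odd
      ((show Odd (147 : ℤ) by decide).mul haodd.pow)
  obtain ⟨h, k, hhkN, hhk, -, hs⟩ := split_seven_odd (n := 3) (by norm_num) hco haedvd hXodd
    (by rw [mul_pow, hm, hX]; ring)
  rw [hX, hhk] at hs
  rcases hs with hs | hs
  · refine no_seven_neg (G := 8 * f) (H := h) (K := k) (fun h7 => h7m ?_)
      (by linear_combination hs)
    rcases (Nat.prime_iff_prime_int.mp p7).dvd_mul.mp h7 with h | h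
    · norm_num at h
    · refine (Nat.prime_iff_prime_int.mp p7).dvd_of_dvd_pow (n := 2) ?_
      rw [hm]
      exact dvd_add (dvd_sub ⟨49 * a ^ 4, by push_cast; ring⟩
        ⟨21 * f ^ 2 * a ^ 2, by push_cast; ring⟩)
        ((dvd_pow h (by norm_num)).mul_left _)
  · have hodd : Odd h.natAbs ∧ Odd k.natAbs := Nat.odd_mul.mp (hhkN ▸ Int.natAbs_odd.mpr haodd)
    exact no_seven_odd (w := 8 * f) (Int.natAbs_odd.mp hodd.2) (Int.natAbs_odd.mp hodd.1)
      (by linear_combination -hs)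

/-- `(m² + 147e²)² - w² = 21952e⁴` has no coprime solution with `e ≠ 0` (infinite descent). -/
lemma no_seven (m e w : ℤ) (he : e ≠ 0) (hco : Int.gcd m (7 * e) = 1) :
    (m ^ 2 + 147 * e ^ 2) ^ 2 - w ^ 2 ≠ 21952 * e ^ 4 := by
  induction hN : e.natAbs using Nat.strong_induction_on generalizing m e w with
  | _ N ih =>
  intro heq
  have p7 : Nat.Prime 7 := by norm_num
  have h7m : ¬(7 : ℤ) ∣ m := fun h =>
    not_prime_dvd_both hco p7 (by exact_mod_cast h) ⟨e, by push_cast; ring⟩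
  set A := m ^ 2 + 147 * e ^ 2 with hA
  have hApos : 0 < A := by positivity
  have hw2 : |w| ^ 2 = A ^ 2 - 21952 * e ^ 4 := by rw [sq_abs]; linarith
  have hnotboth : ¬(Odd m ∧ Odd e) := fun h => no_seven_odd h.1 h.2 heq
  have hAodd : Odd A := by
    rw [hA]
    rcases Int.even_or_odd m with hm | hm <;> rcases Int.even_or_odd e with hev | hev
    · exact (not_prime_dvd_both hco Nat.prime_two (by exact_mod_cast hm.two_dvd)
        (dvd_mul_of_dvd_right (by exact_mod_cast hev.two_dvd) _)).elim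
    · exact (hm.pow_of_ne_zero two_ne_zero).add_odd ((show Odd (147 : ℤ) by decide).mul hev.pow)
    · exact hm.pow.add_even ((hev.pow_of_ne_zero two_ne_zero).mul_left _)
    · exact absurd ⟨hm, hev⟩ hnotboth
  have hwodd : Odd |w| := by
    have : Odd (|w| ^ 2) := by rw [hw2]; exact hAodd.pow.sub_even ⟨10976 * e ^ 4, by ring⟩
    exact (Int.odd_pow' two_ne_zero).mp this
  obtain ⟨U, hU⟩ : (2 : ℤ) ∣ A - |w| := (hAodd.sub_odd hwodd).two_dvd
  have he4 : 0 < e ^ 4 := by positivity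
  have hUV : U * (U + |w|) = ((7 : ℕ) : ℤ) ^ 3 * (2 * e) ^ 4 := by
    have : A = 2 * U + |w| := by linarith
    rw [this] at hw2
    push_cast
    linarith [show (2 * U + |w|) ^ 2 = 4 * (U * (U + |w|)) + |w| ^ 2 by ring,
      show (2 * e) ^ 4 = 16 * e ^ 4 by ring]
  have hUnn : 0 ≤ U := by
    have h4 : (0 : ℤ) < (2 * e) ^ 4 := by positivity
    by_contra hlt
    push_cast at hUV
    nlinarith
  have hgc : Int.gcd U (U + |w|) = 1 := int_gcd_eq_one_of fun r hr h1 h2 => by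
    have hp := Nat.prime_iff_prime_int.mp hr
    have hrA : (r : ℤ) ∣ A := by
      rw [show A = U + (U + |w|) by linarith]; exact dvd_add h1 h2
    have hr2 : r ≠ 2 := by
      rintro rfl
      exact Int.not_even_iff_odd.mpr hAodd (even_iff_two_dvd.mpr (by exact_mod_cast hrA))
    have hre : (r : ℤ) ∣ 7 * e := by
      rcases hp.dvd_mul.mp (hUV ▸ h1.mul_right (U + |w|)) with h | h
      · exact dvd_mul_of_dvd_left (by exact_mod_cast hp.dvd_of_dvd_pow h) _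
      · rcases hp.dvd_mul.mp (hp.dvd_of_dvd_pow h) with h | h
        · exact absurd ((Nat.prime_dvd_prime_iff_eq hr Nat.prime_two).mp (by exact_mod_cast h)) hr2
        · exact dvd_mul_of_dvd_right h _
    refine not_prime_dvd_both hco hr (hp.dvd_of_dvd_pow (n := 2) ?_) hre
    rw [show m ^ 2 = A - 7 * e * (21 * e) by rw [hA]; ring]
    exact dvd_sub hrA (hre.mul_right _)
  obtain ⟨a, b, habN, hab, hcoab, hsum⟩ : ∃ a b : ℤ, (2 * e).natAbs = a.natAbs * b.natAbs ∧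
      (2 * e) ^ 2 = a ^ 2 * b ^ 2 ∧ Int.gcd a b = 1 ∧ A = 343 * a ^ 4 + b ^ 4 := by
    obtain ⟨a, b, h0, h1, h2, h3⟩ := int_split_prime_pow_fourth p7 hUnn (by positivity) hgc hUV
    refine ⟨a, b, h0, h1, h2, ?_⟩
    push_cast at h3
    rcases h3 with ⟨r, s⟩ | ⟨r, s⟩ <;> linear_combination hU + r + s
  have ha0 : a ≠ 0 := by rintro rfl; simp at habN; exact he habN
  have hb0 : b ≠ 0 := by rintro rfl; simp at habN; exact he habN
  rcases Int.even_or_odd a with ⟨f, rfl⟩ | haodd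
  · -- `a = 2f`: `m² + 147f²b² = 5488f⁴ + b⁴`
    have he2 : e ^ 2 = f ^ 2 * b ^ 2 :=
      mul_left_cancel₀ (show (4 : ℤ) ≠ 0 by norm_num) (by linear_combination hab)
    have hfe : e.natAbs = f.natAbs * b.natAbs := by
      rw [← two_mul, Int.natAbs_mul, Int.natAbs_mul] at habN
      simpa [mul_assoc] using habN
    have hfdvd : f ∣ e := Int.natAbs_dvd_natAbs.mp ⟨_, hfe⟩
    have hbodd : Odd b := by
      rcases Int.even_or_odd b with hbe | hbo
      · exact (not_prime_dvd_both hcoab Nat.prime_two ⟨f, by push_cast; ring⟩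
          (by exact_mod_cast hbe.two_dvd)).elim
      · exact hbo
    have hm : m ^ 2 = b ^ 4 - 147 * f ^ 2 * b ^ 2 + 5488 * f ^ 4 := by
      rw [hA, he2] at hsum; linear_combination hsum
    have h7b : ¬(7 : ℤ) ∣ b := fun h7 => h7m (by
      refine (Nat.prime_iff_prime_int.mp p7).dvd_of_dvd_pow (n := 2) ?_
      rw [hm]
      exact dvd_add (dvd_sub (dvd_pow h7 (by norm_num)) ⟨21 * f ^ 2 * b ^ 2, by push_cast; ring⟩)
        ⟨784 * f ^ 4, by push_cast; ring⟩)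
    rcases Int.even_or_odd f with ⟨f', rfl⟩ | hfodd
    · have hf'0 : f' ≠ 0 := by rintro rfl; simp at ha0
      obtain ⟨h, k, hh0, hle, hco', hs⟩ := no_seven_step hco hbodd h7b
        ((dvd_add_self_left.mpr dvd_rfl).trans hfdvd) hf'0 hm
      have hlt : h.natAbs < N := by
        calc h.natAbs ≤ f'.natAbs := hle
          _ < (f' + f').natAbs := by omega
          _ ≤ N := hN ▸ hfe ▸ Nat.le_mul_of_pos_right _ (Int.natAbs_pos.mpr hb0)
      exact ih _ hlt k h b hh0 hco' rfl hs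
    · exact no_seven_two_mul hco h7b hfdvd hfodd hm
  · -- `b = 2f`: `m² + 147f²a² = 343a⁴ + 16f⁴`
    obtain ⟨f, rfl⟩ : Even b := by
      have : Even (a.natAbs * b.natAbs) := by
        rw [← habN, Int.natAbs_mul]; exact even_two.mul_right _
      rcases Nat.even_mul.mp this with h | h
      · exact absurd (Int.natAbs_even.mp h) (Int.not_even_iff_odd.mpr haodd)
      · exact Int.natAbs_even.mp h
    have he2 : e ^ 2 = f ^ 2 * a ^ 2 :=
      mul_left_cancel₀ (show (4 : ℤ) ≠ 0 by norm_num) (by linear_combination hab)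
    have haedvd : a ∣ e := (Int.pow_dvd_pow_iff two_ne_zero).mp ⟨f ^ 2, by rw [he2]; ring⟩
    have hm : m ^ 2 = 343 * a ^ 4 - 147 * f ^ 2 * a ^ 2 + 16 * f ^ 4 := by
      rw [hA, he2] at hsum; linear_combination hsum
    exact no_seven_a_odd hco haodd haedvd hm

/-- `7(M² + 3N²)² - 7W² = 64N⁴` has no integer solution with `N ≠ 0`, i.e. `(n² + 3)² - 64/7` is
not a square for rational `n`. -/
lemma no_seven_int (M N W : ℤ) (hN : N ≠ 0) :
    7 * (M ^ 2 + 3 * N ^ 2) ^ 2 - 7 * W ^ 2 ≠ 64 * N ^ 4 := by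
  intro h
  have hg0 : Int.gcd M N ≠ 0 := by simp [Int.gcd_eq_zero_iff, hN]
  obtain ⟨g, M', N', hg, hco, rfl, rfl⟩ := Int.exists_gcd_one' (Nat.pos_of_ne_zero hg0)
  have hN' : N' ≠ 0 := left_ne_zero_of_mul hN
  have hgq : (g : ℚ) ≠ 0 := by exact_mod_cast hg.ne'
  -- `V = W / g²` satisfies `7 V² ∈ ℤ`, so it is an integer
  have hV : (7 * ((W : ℚ) / (g : ℚ) ^ 2)) ^ 2 =
      ((7 * (7 * (M' ^ 2 + 3 * N' ^ 2) ^ 2 - 64 * N' ^ 4) : ℤ) : ℚ) := by
    have hq : 7 * (((M' : ℚ) * g) ^ 2 + 3 * ((N' : ℚ) * g) ^ 2) ^ 2 - 7 * (W : ℚ) ^ 2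
        = 64 * ((N' : ℚ) * g) ^ 4 := by exact_mod_cast h
    push_cast
    field_simp
    linear_combination -hq
  obtain ⟨Y, hY⟩ := Rat.isSquare_intCast_iff.mp ⟨_, hV.symm.trans (sq _)⟩
  have h7 : (7 : ℤ) ∣ Y :=
    (Int.prime_iff_natAbs_prime.mpr (by norm_num) : Prime (7 : ℤ)).dvd_of_dvd_pow (n := 2)
      (by rw [sq, ← hY]; exact dvd_mul_right _ _)
  obtain ⟨V, rfl⟩ := h7
  have hV' : 7 * V ^ 2 = 7 * (M' ^ 2 + 3 * N' ^ 2) ^ 2 - 64 * N' ^ 4 := by linarith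
  have h7N : (7 : ℤ) ∣ N' := by
    have hp : Prime (7 : ℤ) := Int.prime_iff_natAbs_prime.mpr (by norm_num)
    rcases hp.dvd_mul.mp (show (7 : ℤ) ∣ 64 * N' ^ 4 from
      ⟨(M' ^ 2 + 3 * N' ^ 2) ^ 2 - V ^ 2, by linear_combination hV'⟩) with h | h
    · norm_num at h
    · exact hp.dvd_of_dvd_pow h
  obtain ⟨e, rfl⟩ := h7N
  exact no_seven M' e V (right_ne_zero_of_mul hN') hco (by linarith)

/-- Fermat's last theorem for exponent 7 over `ℤ`. -/
theorem fermat_seven {a b c : ℤ} (ha : a ≠ 0) (hb : b ≠ 0) (hc : c ≠ 0) :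
    a ^ 7 + b ^ 7 ≠ c ^ 7 := by
  intro h
  set p := a + b - c with hp
  by_cases hp0 : p = 0
  · have hcab : c = a + b := by linarith
    have h' : a * b * c * (a ^ 2 + a * b + b ^ 2) ^ 2 = 0 := by
      have h7 : 7 * (a * b * c * (a ^ 2 + a * b + b ^ 2) ^ 2) = 0 := by
        rw [hcab] at h ⊢; linear_combination -h
      linarith
    have hpos : a ^ 2 + a * b + b ^ 2 ≠ 0 := by
      have : 0 < a ^ 2 := by positivity
      nlinarith [sq_nonneg (a + 2 * b)]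
    simp [ha, hb, hc, hpos] at h'
  · set q := a * b - a * c - b * c with hq
    set r := -(a * b * c) with hr
    refine no_seven_int (2 * q - p ^ 2) (p ^ 2) (4 * (2 * p * r + p ^ 4 - 3 * p ^ 2 * q + q ^ 2))
      (pow_ne_zero _ hp0) ?_
    rw [hp, hq, hr]
    linear_combination (-64 * (a + b - c)) * h

end Fermat.Agent.SmallExponents
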