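import Mathlib.Algebra.Field.Basic
import Mathlib.Tactic.FieldSimp
import Mathlib.Tactic.LinearCombination
import Mathlib.Tactic.Ring

/-!
# Algebraic identities for points of order 13

Algebraic identities on the curve `y² + (x³ + x² + 1)y = x² + x` parametrising Tate normal forms
with a point of order 13 (`c = -xys`, `b = (1 - xy)c`, `(y + 1)s = y + 1 - xy`), and the coordinate
`τ = -(x³ + 4x² + x - 1)/(x(x + 1))` of the quotient. Cofactors were found by polynomial division.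
-/

namespace Fermat.Agent.SmallExponents

variable {K : Type*} [Field K] {x y s : K}

/-- The numerator of `τ`. -/
def tauNum (x : K) : K := -(x ^ 3 + 4 * x ^ 2 + x - 1)

/-- The sextic factor of `c₆`, homogenised in `τ = tauNum x / (x(x + 1))`. -/
def sexticHom (x : K) : K :=
  tauNum x ^ 6 + 10 * tauNum x ^ 5 * (x * (x + 1)) + 46 * tauNum x ^ 4 * (x * (x + 1)) ^ 2 +
    108 * tauNum x ^ 3 * (x * (x + 1)) ^ 3 + 122 * tauNum x ^ 2 * (x * (x + 1)) ^ 4 +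
    38 * tauNum x * (x * (x + 1)) ^ 5 - (x * (x + 1)) ^ 6

/-- `b₂ = w · beta2 / (x(x + 1))` on the Tate normal form, for `w = y²s/(x(x + 1))`. -/
def beta2 (x y : K) : K :=
  2 * y * x ^ 4 + 8 * y * x ^ 3 + 6 * y * x ^ 2 + 2 * y + x ^ 7 + 5 * x ^ 6 + 7 * x ^ 5 + 4 * x ^ 4
    + 11 * x ^ 3 + 10 * x ^ 2 + 1

/-- `b₄ = w² · beta4 / (x + 1)` on the Tate normal form. -/
def beta4 (x y : K) : K :=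
  y * x ^ 4 + 4 * y * x ^ 3 + 3 * y * x ^ 2 + y + x ^ 7 + 5 * x ^ 6 + 8 * x ^ 5 + 6 * x ^ 4 + 7 * x
    ^ 3 + 7 * x ^ 2 + 2 * x + 1

/-- `b₆ = w³ · beta6 / (x + 1)` on the Tate normal form. -/
def beta6 (x y : K) : K :=
  y * x ^ 5 + 4 * y * x ^ 4 + 5 * y * x ^ 3 + 2 * y * x ^ 2 + y * x + x ^ 8 + 5 * x ^ 7 + 9 * x ^ 6
    + 8 * x ^ 5 + 7 * x ^ 4 + 7 * x ^ 3 + 3 * x ^ 2 + x

/-- `b₈ = w⁴ · beta8 / (x + 1)` on the Tate normal form. -/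
def beta8 (x y : K) : K :=
  y * x ^ 6 + 4 * y * x ^ 5 + 6 * y * x ^ 4 + 3 * y * x ^ 3 + y * x ^ 2 + x ^ 9 + 6 * x ^ 8 + 14 * x
    ^ 7 + 17 * x ^ 6 + 14 * x ^ 5 + 10 * x ^ 4 + 4 * x ^ 3 + x ^ 2

/-- The relation cutting out points of order 13, in the coordinates `r = 1 - xy` and `s`, is the
hyperelliptic curve. -/
lemma core_curve {r : K} (hr : r = 1 - x * y) (hs : (y + 1) * s = y + 1 - x * y) (hx : x ≠ 0)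
    (hy : y ≠ 0) (hF : r ^ 3 - r ^ 2 * s ^ 4 + 5 * r ^ 2 * s ^ 3 - 9 * r ^ 2 * s ^ 2
      + 4 * r ^ 2 * s - 2 * r ^ 2 - r * s ^ 3 + 6 * r * s ^ 2 - 3 * r * s + r - s ^ 3 = 0) :
    y ^ 2 + (x ^ 3 + x ^ 2 + 1) * y - x ^ 2 - x = 0 := by
  subst hr
  refine mul_left_cancel₀ (mul_ne_zero (pow_ne_zero 3 hx) (pow_ne_zero 5 hy)) ?_
  linear_combination -(y + 1) ^ 4 * hF + (-s ^ 3 * y ^ 5 * x ^ 2 - 3 * s ^ 3 * y ^ 4 * x ^ 2 +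
      2 * s ^ 3 * y ^ 4 * x - 3 * s ^ 3 * y ^ 3 * x ^ 2 + 6 * s ^ 3 * y ^ 3 * x - s ^ 3 *
      y ^ 3 - s ^ 3 * y ^ 2 * x ^ 2 + 6 * s ^ 3 * y ^ 2 * x - 3 * s ^ 3 * y ^ 2 + 2 * s ^ 3 *
      y * x - 3 * s ^ 3 * y - s ^ 3 + s ^ 2 * y ^ 5 * x ^ 3 + 4 * s ^ 2 * y ^ 5 * x ^ 2 + 2 *
      s ^ 2 * y ^ 4 * x ^ 3 + 10 * s ^ 2 * y ^ 4 * x ^ 2 - 7 * s ^ 2 * y ^ 4 * x + s ^ 2 *
      y ^ 3 * x ^ 3 + 8 * s ^ 2 * y ^ 3 * x ^ 2 - 20 * s ^ 2 * y ^ 3 * x + 2 * s ^ 2 * y ^ 3 +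
      2 * s ^ 2 * y ^ 2 * x ^ 2 - 19 * s ^ 2 * y ^ 2 * x + 6 * s ^ 2 * y ^ 2 - 6 * s ^ 2 * y *
      x + 6 * s ^ 2 * y + 2 * s ^ 2 - s * y ^ 5 * x ^ 4 - 3 * s * y ^ 5 * x ^ 3 - 5 * s *
      y ^ 5 * x ^ 2 - s * y ^ 4 * x ^ 4 - 4 * s * y ^ 4 * x ^ 3 - 10 * s * y ^ 4 * x ^ 2 + 5 *
      s * y ^ 4 * x - s * y ^ 3 * x ^ 3 - 6 * s * y ^ 3 * x ^ 2 + 14 * s * y ^ 3 * x - s *
      y ^ 3 - s * y ^ 2 * x ^ 2 + 13 * s * y ^ 2 * x - 3 * s * y ^ 2 + 4 * s * y * x - 3 * s *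
      y - s + y ^ 5 * x ^ 5 + 2 * y ^ 5 * x ^ 4 + 2 * y ^ 5 * x ^ 3 - y ^ 5 * x ^ 2 + y ^ 4 *
      x ^ 3 - 3 * y ^ 4 * x ^ 2 - 3 * y ^ 3 * x ^ 2 - y ^ 2 * x ^ 2) * hs

/-- The identity giving `c₆` in terms of `sexticHom`. -/
lemma core_c6 (hH : y ^ 2 + (x ^ 3 + x ^ 2 + 1) * y - x ^ 2 - x = 0) :
    -beta2 x y ^ 3 + 36 * x ^ 2 * (x + 1) * beta2 x y * beta4 x y
      - 216 * x ^ 3 * (x + 1) ^ 2 * beta6 x y = -(sexticHom x * (2 * y + (x ^ 3 + x ^ 2 + 1))) := by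
  simp only [beta2, beta4, beta6, sexticHom, tauNum]
  linear_combination (-8 * y * x ^ 12 - 96 * y * x ^ 11 - 456 * y * x ^ 10 - 1088 * y * x ^ 9 -
      1392 * y * x ^ 8 - 1056 * y * x ^ 7 - 744 * y * x ^ 6 - 576 * y * x ^ 5 - 240 * y * x ^ 4 -
      96 * y * x ^ 3 - 72 * y * x ^ 2 - 8 * y - 4 * x ^ 15 - 52 * x ^ 14 - 276 * x ^ 13 - 776 *
      x ^ 12 - 1288 * x ^ 11 - 1452 * x ^ 10 - 1444 * x ^ 9 - 1356 * x ^ 8 - 936 * x ^ 7 - 540 *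
      x ^ 6 - 372 * x ^ 5 - 156 * x ^ 4 - 52 * x ^ 3 - 40 * x ^ 2 - 4) * hH

/-- The identity giving the discriminant in terms of `tauNum`. -/
lemma core_disc (hH : y ^ 2 + (x ^ 3 + x ^ 2 + 1) * y - x ^ 2 - x = 0) :
    -beta2 x y ^ 2 * beta8 x y - 8 * x ^ 2 * beta4 x y ^ 3 - 27 * x ^ 2 * (x + 1) * beta6 x y ^ 2
      + 9 * x * beta2 x y * beta4 x y * beta6 x y =
      (x * (x + 1)) ^ 7 * tauNum x * x ^ 2 * (x + 1) ^ 3 := by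
  simp only [beta2, beta4, beta6, beta8, tauNum]
  linear_combination (6 * y * x ^ 14 + 72 * y * x ^ 13 + 366 * y * x ^ 12 + 1032 * y * x ^ 11 +
      1764 * y * x ^ 10 + 1896 * y * x ^ 9 + 1398 * y * x ^ 8 + 888 * y * x ^ 7 + 516 * y * x ^ 6
      + 216 * y * x ^ 5 + 78 * y * x ^ 4 + 24 * y * x ^ 3 + 6 * y * x ^ 2 + 7 * x ^ 17 + 87 *
      x ^ 16 + 471 * x ^ 15 + 1474 * x ^ 14 + 2995 * x ^ 13 + 4302 * x ^ 12 + 4889 * x ^ 11 + 4935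
      * x ^ 10 + 4365 * x ^ 9 + 3092 * x ^ 8 + 1833 * x ^ 7 + 1011 * x ^ 6 + 472 * x ^ 5 + 175 *
      x ^ 4 + 44 * x ^ 3 + 7 * x ^ 2) * hH

/-- The square root of `τ² + 6τ + 13`, cleared of denominators. -/
lemma core_sq (hH : y ^ 2 + (x ^ 3 + x ^ 2 + 1) * y - x ^ 2 - x = 0) :
    (2 * y + (x ^ 3 + x ^ 2 + 1)) ^ 2 = tauNum x ^ 2 + 6 * tauNum x * (x * (x + 1)) +
      13 * (x * (x + 1)) ^ 2 := by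
  simp only [tauNum]
  linear_combination 4 * hH

/-- The coefficient `b₂` of the Tate normal form, cleared of denominators. -/
lemma core_b2 (hH : y ^ 2 + (x ^ 3 + x ^ 2 + 1) * y - x ^ 2 - x = 0)
    (hs : (y + 1) * s = y + 1 - x * y)
    (hy : y + 1 ≠ 0) :
    (1 + x * y * s) ^ 2 * (x * (x + 1)) ^ 2 + 4 * y ^ 2 * (y + 1) * s * x ^ 2 * (x + 1) =
      y ^ 2 * s * beta2 x y := by
  refine mul_right_cancel₀ (pow_ne_zero 2 hy) ?_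
  simp only [beta2]
  linear_combination (s * y ^ 3 * x ^ 6 + 2 * s * y ^ 3 * x ^ 5 + s * y ^ 3 * x ^ 4 + s * y ^ 2 *
      x ^ 6 + 2 * s * y ^ 2 * x ^ 5 + s * y ^ 2 * x ^ 4 - 2 * y ^ 4 * x ^ 4 - 4 * y ^ 4 * x ^ 3 -
      2 * y ^ 4 * x ^ 2 - 2 * y ^ 4 - 2 * y ^ 3 * x ^ 7 - 6 * y ^ 3 * x ^ 6 - 6 * y ^ 3 * x ^ 5 -
      5 * y ^ 3 * x ^ 4 - 11 * y ^ 3 * x ^ 3 - 8 * y ^ 3 * x ^ 2 - 3 * y ^ 3 - y ^ 2 * x ^ 7 - 4 *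
      y ^ 2 * x ^ 6 - 3 * y ^ 2 * x ^ 5 + y ^ 2 * x ^ 4 - 5 * y ^ 2 * x ^ 3 - 6 * y ^ 2 * x ^ 2 -
      y ^ 2 + 2 * y * x ^ 5 + 4 * y * x ^ 4 + 2 * y * x ^ 3) * hs + (2 * y ^ 3 * x ^ 5 + 2 * y ^ 3
      * x ^ 4 - 2 * y ^ 3 * x ^ 3 - 2 * y ^ 3 * x ^ 2 + 2 * y ^ 3 * x - 2 * y ^ 3 + y ^ 2 * x ^ 5
      + 2 * y ^ 2 * x ^ 4 - 5 * y ^ 2 * x ^ 3 - 6 * y ^ 2 * x ^ 2 + y ^ 2 * x - 3 * y ^ 2 - 3 * y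
      * x ^ 3 - 5 * y * x ^ 2 - 2 * y * x - y - x ^ 2 - x) * hH

/-- The coefficient `b₄` of the Tate normal form, cleared of denominators. -/
lemma core_b4 (hH : y ^ 2 + (x ^ 3 + x ^ 2 + 1) * y - x ^ 2 - x = 0)
    (hs : (y + 1) * s = y + 1 - x * y)
    (hy : y + 1 ≠ 0) :
    (1 + x * y * s) * (y + 1) * (x * (x + 1)) ^ 2 = y ^ 2 * s * beta4 x y := by
  refine mul_right_cancel₀ (pow_ne_zero 1 hy) ?_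
  simp only [beta4]
  linear_combination (-y ^ 3 * x ^ 4 - 4 * y ^ 3 * x ^ 3 - 3 * y ^ 3 * x ^ 2 - y ^ 3 - y ^ 2 *
      x ^ 7 - 5 * y ^ 2 * x ^ 6 - 7 * y ^ 2 * x ^ 5 - 4 * y ^ 2 * x ^ 4 - 6 * y ^ 2 * x ^ 3 - 7 *
      y ^ 2 * x ^ 2 - 2 * y ^ 2 * x - y ^ 2 + y * x ^ 5 + 2 * y * x ^ 4 + y * x ^ 3) * hs + (y ^ 2
      * x ^ 5 + 3 * y ^ 2 * x ^ 4 - y ^ 2 * x ^ 3 - 3 * y ^ 2 * x ^ 2 + y ^ 2 * x - y ^ 2 - 2 * y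
      * x ^ 3 - 4 * y * x ^ 2 - 2 * y * x - y - x ^ 2 - x) * hH

/-- The coefficient `b₆` of the Tate normal form, cleared of denominators. -/
lemma core_b6 (hH : y ^ 2 + (x ^ 3 + x ^ 2 + 1) * y - x ^ 2 - x = 0)
    (hs : (y + 1) * s = y + 1 - x * y)
    (hy : y + 1 ≠ 0) :
    (y + 1) ^ 2 * (x * (x + 1)) ^ 3 = y ^ 2 * s * beta6 x y * (x + 1) := by
  refine mul_right_cancel₀ (pow_ne_zero 1 hy) ?_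
  simp only [beta6]
  linear_combination (-y ^ 3 * x ^ 6 - 5 * y ^ 3 * x ^ 5 - 9 * y ^ 3 * x ^ 4 - 7 * y ^ 3 * x ^ 3 -
      3 * y ^ 3 * x ^ 2 - y ^ 3 * x - y ^ 2 * x ^ 9 - 6 * y ^ 2 * x ^ 8 - 14 * y ^ 2 * x ^ 7 - 17
      * y ^ 2 * x ^ 6 - 15 * y ^ 2 * x ^ 5 - 14 * y ^ 2 * x ^ 4 - 10 * y ^ 2 * x ^ 3 - 4 * y ^ 2 *
      x ^ 2 - y ^ 2 * x) * hs + (y ^ 2 * x ^ 7 + 4 * y ^ 2 * x ^ 6 + 4 * y ^ 2 * x ^ 5 - 2 * y ^ 2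
      * x ^ 4 - 4 * y ^ 2 * x ^ 3 - 2 * y ^ 2 * x ^ 2 - y ^ 2 * x - y * x ^ 5 - 5 * y * x ^ 4 - 7
      * y * x ^ 3 - 4 * y * x ^ 2 - y * x - x ^ 4 - 2 * x ^ 3 - x ^ 2) * hH

/-- The coefficient `b₈` of the Tate normal form, cleared of denominators. -/
lemma core_b8 (hH : y ^ 2 + (x ^ 3 + x ^ 2 + 1) * y - x ^ 2 - x = 0)
    (hs : (y + 1) * s = y + 1 - x * y)
    (hy : y + 1 ≠ 0) :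
    (y + 1) ^ 3 * (x * (x + 1)) ^ 4 = y ^ 2 * s * beta8 x y * (x + 1) ^ 2 := by
  refine mul_right_cancel₀ (pow_ne_zero 1 hy) ?_
  simp only [beta8]
  linear_combination (-y ^ 3 * x ^ 8 - 6 * y ^ 3 * x ^ 7 - 15 * y ^ 3 * x ^ 6 - 19 * y ^ 3 * x ^ 5
      - 13 * y ^ 3 * x ^ 4 - 5 * y ^ 3 * x ^ 3 - y ^ 3 * x ^ 2 - y ^ 2 * x ^ 11 - 8 * y ^ 2 *
      x ^ 10 - 27 * y ^ 2 * x ^ 9 - 51 * y ^ 2 * x ^ 8 - 62 * y ^ 2 * x ^ 7 - 55 * y ^ 2 * x ^ 6 -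
      38 * y ^ 2 * x ^ 5 - 19 * y ^ 2 * x ^ 4 - 6 * y ^ 2 * x ^ 3 - y ^ 2 * x ^ 2) * hs + (y ^ 2 *
      x ^ 9 + 6 * y ^ 2 * x ^ 8 + 13 * y ^ 2 * x ^ 7 + 10 * y ^ 2 * x ^ 6 - 2 * y ^ 2 * x ^ 5 - 7
      * y ^ 2 * x ^ 4 - 4 * y ^ 2 * x ^ 3 - y ^ 2 * x ^ 2 - y * x ^ 7 - 7 * y * x ^ 6 - 15 * y *
      x ^ 5 - 14 * y * x ^ 4 - 6 * y * x ^ 3 - y * x ^ 2 - x ^ 6 - 3 * x ^ 5 - 3 * x ^ 4 - x ^ 3)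
      * hH

/-- The effect of doubling the point on the hyperelliptic coordinate. -/
lemma core_double (hH : y ^ 2 + (x ^ 3 + x ^ 2 + 1) * y - x ^ 2 - x = 0)
    (hs : (y + 1) * s = y + 1 - x * y)
    (hy : y + 1 ≠ 0) {b c r x4 x5 x6 : K} (hr : r = 1 - x * y) (hc : c = -(x * y * s))
    (hb : b = r * c) (h4 : x4 = r * (r - 1)) (h5 : x5 = r * s * (s - 1))
    (h6 : x6 = s ^ 2 * y ^ 2 + (1 - c) * (s * y) + b - r * s * (s - 1)) :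
    (x6 - x4) * (x5 - x4) * x + (x + 1) * (x4 - b) * (x6 - x5) = 0 := by
  subst h6 h5 h4 hb hc hr
  refine mul_right_cancel₀ (pow_ne_zero 4 hy) ?_
  linear_combination (-s ^ 3 * y ^ 6 * x ^ 3 - s ^ 3 * y ^ 6 * x ^ 2 - 4 * s ^ 3 * y ^ 5 * x ^ 3 -
      2 * s ^ 3 * y ^ 5 * x ^ 2 + s ^ 3 * y ^ 5 * x - 6 * s ^ 3 * y ^ 4 * x ^ 3 + 2 * s ^ 3 *
      y ^ 4 * x ^ 2 + 3 * s ^ 3 * y ^ 4 * x - 4 * s ^ 3 * y ^ 3 * x ^ 3 + 8 * s ^ 3 * y ^ 3 *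
      x ^ 2 + 2 * s ^ 3 * y ^ 3 * x - s ^ 3 * y ^ 2 * x ^ 3 + 7 * s ^ 3 * y ^ 2 * x ^ 2 - 2 *
      s ^ 3 * y ^ 2 * x + 2 * s ^ 3 * y * x ^ 2 - 3 * s ^ 3 * y * x - s ^ 3 * x - s ^ 2 * y ^ 7 *
      x ^ 4 - 2 * s ^ 2 * y ^ 7 * x ^ 3 - s ^ 2 * y ^ 7 * x ^ 2 - 5 * s ^ 2 * y ^ 6 * x ^ 4 - 6 *
      s ^ 2 * y ^ 6 * x ^ 3 - s ^ 2 * y ^ 6 * x ^ 2 + s ^ 2 * y ^ 6 * x - 9 * s ^ 2 * y ^ 5 *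
      x ^ 4 - s ^ 2 * y ^ 5 * x ^ 3 + 5 * s ^ 2 * y ^ 5 * x ^ 2 + 3 * s ^ 2 * y ^ 5 * x - 7 *
      s ^ 2 * y ^ 4 * x ^ 4 + 13 * s ^ 2 * y ^ 4 * x ^ 3 + 7 * s ^ 2 * y ^ 4 * x ^ 2 + 2 * s ^ 2 *
      y ^ 4 * x - 2 * s ^ 2 * y ^ 3 * x ^ 4 + 15 * s ^ 2 * y ^ 3 * x ^ 3 - 4 * s ^ 2 * y ^ 3 *
      x ^ 2 - s ^ 2 * y ^ 3 * x + 5 * s ^ 2 * y ^ 2 * x ^ 3 - 10 * s ^ 2 * y ^ 2 * x ^ 2 - 4 *
      s ^ 2 * y * x ^ 2 + 2 * s ^ 2 * y * x + s ^ 2 * x + s * y ^ 6 * x ^ 5 + 3 * s * y ^ 6 *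
      x ^ 4 + 2 * s * y ^ 6 * x ^ 3 - s * y ^ 6 * x ^ 2 + 2 * s * y ^ 5 * x ^ 5 + 6 * s * y ^ 5 *
      x ^ 4 - 7 * s * y ^ 5 * x ^ 2 + s * y ^ 5 * x + s * y ^ 4 * x ^ 5 + 3 * s * y ^ 4 * x ^ 4 -
      9 * s * y ^ 4 * x ^ 3 - 12 * s * y ^ 4 * x ^ 2 + 5 * s * y ^ 4 * x - 10 * s * y ^ 3 * x ^ 3
      - 5 * s * y ^ 3 * x ^ 2 + 9 * s * y ^ 3 * x - 3 * s * y ^ 2 * x ^ 3 + 3 * s * y ^ 2 * x ^ 2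
      + 7 * s * y ^ 2 * x + 2 * s * y * x ^ 2 + 2 * s * y * x + y ^ 7 * x ^ 4 - y ^ 6 * x ^ 6 - 2
      * y ^ 6 * x ^ 5 + 2 * y ^ 6 * x ^ 4 - y ^ 6 * x ^ 3 - y ^ 5 * x ^ 6 - y ^ 5 * x ^ 5 + 5 *
      y ^ 5 * x ^ 4 - 2 * y ^ 5 * x ^ 3 + y ^ 4 * x ^ 5 + 5 * y ^ 4 * x ^ 4 - 3 * y ^ 4 * x ^ 3 +
      y ^ 3 * x ^ 4 - 3 * y ^ 3 * x ^ 3 - y ^ 2 * x ^ 3) * hs + (y ^ 6 * x ^ 4 + y ^ 5 * x ^ 4 -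
      y ^ 5 * x ^ 3 - y ^ 4 * x ^ 3) * hH

end Fermat.Agent.SmallExponents
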