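import Mathlib.Tactic.NormNum
import Fermat.Agent.SmallExponents.Invariants
import Fermat.Agent.SmallExponents.ThirteenCore

/-!
# Points of order 13

The invariant `τ(κ(Q))` is the parameter of `X₀(13)`: it is unchanged by doubling and satisfies the
equation of `X₀(13)` over the line of `c₆²/Δ`.
-/

namespace Fermat.Agent.SmallExponents

open WeierstrassCurve

variable {K : Type*} [Field K] [DecidableEq K] {W : WeierstrassCurve K}

/-- The `X₀(13)` coordinate in terms of the hyperelliptic one. -/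
def tau (x : K) : K := tauNum x / (x * (x + 1))

/-- On `X₀(13)`, `j - 1728 = (τ² + 6τ + 13) sextic(τ)²/τ`. -/
def sextic (t : K) : K := t ^ 6 + 10 * t ^ 5 + 46 * t ^ 4 + 108 * t ^ 3 + 122 * t ^ 2 + 38 * t - 1

omit [DecidableEq K] in
lemma tau_double {x : K} (hx : x ≠ 0) (hx1 : x + 1 ≠ 0) : tau (-(x + 1) / x) = tau x := by
  have e : -(x + 1) / x + 1 = -1 / x := by field_simp; ring
  simp only [tau, tauNum, e]
  field_simp
  ring

/-- `(b, c)` are Tate parameters of a point of order 13, with coordinates `(x, y)` on the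
hyperelliptic model of `X₁(13)`. -/
structure ThirteenParams (b c x y s : K) : Prop where
  curve : y ^ 2 + (x ^ 3 + x ^ 2 + 1) * y - x ^ 2 - x = 0
  s_eq : (y + 1) * s = y + 1 - x * y
  y_add_one_ne : y + 1 ≠ 0
  y_ne : y ≠ 0
  x_ne : x ≠ 0
  x_add_one_ne : x + 1 ≠ 0
  s_ne : s ≠ 0
  c_eq : c = -(x * y * s)
  b_eq : b = (1 - x * y) * c

/-- A Tate normal form with a point of order 13 comes from a point of the hyperelliptic model, and
`κ` is its first coordinate. -/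
lemma tate_thirteen {b c : K} (hT : IsTate W b c) (hb : b ≠ 0) {P : W.toAffine.Point}
    (hP : HasCoords P 0 0) (h : PrimeOrder P 13) :
    ∃ x y s : K, ThirteenParams b c x y s ∧ kappa P = x ∧ kappa (2 • P) = -(x + 1) / x := by
  have hc : c ≠ 0 := tate_c_ne_zero hT hb hP h (by norm_num)
  obtain ⟨r, hr⟩ : ∃ r, b = r * c := ⟨b / c, (div_mul_cancel₀ b hc).symm⟩
  have H4 := tate_four hT hb hP hc hr
  have x1 : xCoord P = 0 := hP.xCoord_eq
  have x2 : xCoord (2 • P) = b := (tate_two hT hb hP).xCoord_eq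
  have x3 : xCoord (3 • P) = c := (tate_three hT hb hP).xCoord_eq
  have x4 : xCoord (4 • P) = r * (r - 1) := H4.xCoord_eq
  have ne : ∀ i j : ℕ, (¬ 13 ∣ i ∧ ¬ 13 ∣ j ∧ ¬ (13 : ℤ) ∣ (i : ℤ) - j ∧ ¬ 13 ∣ i + j) →
      xCoord (i • P) ≠ xCoord (j • P) := fun i j hh => h.xCoord_ne hh.1 hh.2.1 hh.2.2.1 hh.2.2.2
  have hr1 : r * (r - 1) ≠ 0 := by
    rw [← x4, ← x1]; simpa using ne 4 1 (by decide)
  have hr0 : r ≠ 0 := left_ne_zero_of_mul hr1
  have hr1' : r - 1 ≠ 0 := right_ne_zero_of_mul hr1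
  obtain ⟨s, hs⟩ : ∃ s, c = s * (r - 1) := ⟨c / (r - 1), (div_mul_cancel₀ c hr1').symm⟩
  have hs0 : s ≠ 0 := by rintro rfl; simp [hs] at hc
  have H5 := tate_five hT hb hP hc hr hr1 hs
  have x5 : xCoord (5 • P) = r * s * (s - 1) := H5.xCoord_eq
  have hx5 : r * s * (s - 1) ≠ 0 := by
    rw [← x5, ← x1]; simpa using ne 5 1 (by decide)
  have hs1 : s - 1 ≠ 0 := right_ne_zero_of_mul hx5
  have hsr : s - r ≠ 0 := by
    intro e
    have := ne 4 5 (by decide)
    rw [x4, x5] at this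
    obtain rfl : s = r := sub_eq_zero.mp e
    apply ne 6 1 (by decide)
    rw [one_nsmul, x1, (tate_six hT hb hP hc hr hr1 hs hx5 (m := 0) (by ring)).xCoord_eq, hr, hs]
    ring
  -- the relation from `8 • P = -(5 • P)`
  have hD : 2 * (r ^ 2 * (c - r + 1)) + W.a₁ * (r * (r - 1)) + W.a₃ ≠ 0 := by
    intro e
    have h8 : 8 • P = 0 := by
      obtain ⟨n, hn⟩ := H4
      rw [show 8 = 4 + 4 from rfl, add_nsmul, hn]
      exact Affine.Point.add_self_of_Y_eq (by rw [Affine.negY]; linear_combination e)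
    exact (h.nsmul (i := 8) (by decide)).ne_zero h8
  set L := (3 * (r * (r - 1)) ^ 2 + 2 * W.a₂ * (r * (r - 1)) + W.a₄
    - W.a₁ * (r ^ 2 * (c - r + 1))) / (2 * (r ^ 2 * (c - r + 1)) + W.a₁ * (r * (r - 1)) + W.a₃)
  have hL := div_mul_cancel₀ (3 * (r * (r - 1)) ^ 2 + 2 * W.a₂ * (r * (r - 1)) + W.a₄
    - W.a₁ * (r ^ 2 * (c - r + 1))) hD
  have H8 := H4.double (m := L) hD hL rfl rfl
  have h85 : (4 • P + 4 • P : W.toAffine.Point) = -(5 • P) := by
    rw [eq_neg_iff_add_eq_zero, ← add_nsmul, ← add_nsmul]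
    exact h.nsmul_eq
  rw [h85] at H8
  obtain ⟨eX, eY⟩ := H8.unique H5.neg
  rw [eX] at eY
  have eL : L * (r * s * (s - 1) - r * (r - 1)) + r ^ 2 * (c - r + 1) = r * s ^ 2 * (r - s) := by
    linear_combination -eY
  have hF0 : r ^ 2 * (r - 1) * (r ^ 3 - r ^ 2 * s ^ 4 + 5 * r ^ 2 * s ^ 3 - 9 * r ^ 2 * s ^ 2
      + 4 * r ^ 2 * s - 2 * r ^ 2 - r * s ^ 3 + 6 * r * s ^ 2 - 3 * r * s + r - s ^ 3) = 0 := by
    have e1 : (r * s ^ 2 * (r - s) - r ^ 2 * (c - r + 1)) *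
        (2 * (r ^ 2 * (c - r + 1)) + W.a₁ * (r * (r - 1)) + W.a₃) =
        (3 * (r * (r - 1)) ^ 2 + 2 * W.a₂ * (r * (r - 1)) + W.a₄
          - W.a₁ * (r ^ 2 * (c - r + 1))) * (r * s * (s - 1) - r * (r - 1)) := by
      rw [← hL, ← eL]; ring
    rw [hT.a₁_eq, hT.a₂_eq, hT.a₃_eq, hT.a₄_eq, hr, hs] at e1
    linear_combination e1
  have hF := (mul_eq_zero.mp hF0).resolve_left (mul_ne_zero (pow_ne_zero _ hr0) hr1')
  -- birational change to the hyperelliptic model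
  obtain ⟨x, y, hxy, hy1, hx, hy⟩ : ∃ x y : K, r = 1 - x * y ∧ (y + 1) * s = y + 1 - x * y ∧
      x ≠ 0 ∧ y ≠ 0 := by
    have h1s : 1 - s ≠ 0 := fun e => hs1 (by linear_combination -e)
    have h1r : 1 - r ≠ 0 := fun e => hr1' (by linear_combination -e)
    refine ⟨(1 - r) * (1 - s) / (s - r), (s - r) / (1 - s), ?_, ?_, ?_, ?_⟩
    · field_simp; ring
    · field_simp; ring
    · exact div_ne_zero (mul_ne_zero h1r h1s) hsr
    · exact div_ne_zero hsr h1s
  have hy0 : y + 1 ≠ 0 := by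
    intro e
    have : x * y = 0 := by linear_combination hy1 + (1 - s) * e
    exact mul_ne_zero hx hy this
  have hH := core_curve hxy hy1 hx hy hF
  have hx1 : x + 1 ≠ 0 := by
    intro e
    have hxm : x = -1 := by linear_combination e
    rw [hxm] at hH
    have : y * (y + 1) = 0 := by linear_combination hH
    exact mul_ne_zero hy hy0 this
  have hc' : c = -(x * y * s) := by rw [hs, hxy]; ring
  have hm : s * (r - s) = s * y * (s - 1) := by rw [hxy]; linear_combination -s * hy1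
  have x6 := (tate_six hT hb hP hc hr hr1 hs hx5 hm).xCoord_eq
  refine ⟨x, y, s, ⟨hH, hy1, hy0, hy, hx, hx1, hs0, hc', by rw [hr, hxy]⟩, ?_, ?_⟩
  · have d1 : b * (c - r * (r - 1)) ≠ 0 := by
      refine mul_ne_zero hb (sub_ne_zero.mpr ?_)
      rw [← x3, ← x4]; exact ne 3 4 (by decide)
    rw [kappa, x1, x2, x3, x4, sub_zero, div_eq_iff d1, hr, hs]
    have e : (1 - r) * (1 - s) = x * (s - r) := by rw [hxy]; linear_combination -x * hy1
    linear_combination (r * (r - 1) ^ 2 * s) * e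
  · have m4 : (2 • (2 • P) : W.toAffine.Point) = 4 • P := by rw [← mul_nsmul]
    have m6 : (3 • (2 • P) : W.toAffine.Point) = 6 • P := by rw [← mul_nsmul]
    have m8 : (4 • (2 • P) : W.toAffine.Point) = -(5 • P) := by
      rw [← mul_nsmul, ← h85, ← add_nsmul]
    have d1 : (r * (r - 1) - b) *
        ((s * y) ^ 2 + (1 - c) * (s * y) + b - r * s * (s - 1) - r * s * (s - 1)) ≠ 0 := by
      refine mul_ne_zero (sub_ne_zero.mpr ?_) (sub_ne_zero.mpr ?_)
      · rw [← x4, ← x2]; exact ne 4 2 (by decide)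
      · rw [← x6, ← x5]; exact ne 6 5 (by decide)
    simp only [kappa]
    rw [m4, m6, m8, xCoord_neg, x2, x4, x5, x6, div_eq_div_iff d1 hx]
    have key := core_double hH hy1 hy0 (b := b) (c := c) (r := r) (x4 := r * (r - 1))
      (x5 := r * s * (s - 1)) hxy hc' hr rfl rfl rfl
    linear_combination key

omit [DecidableEq K] in
/-- On a Tate normal form with a point of order 13, `τ(x)` satisfies the equation of `X₀(13)` over
the line of `c₆²/Δ`. -/
lemma tate_thirteen_disc {b c : K} (hT : IsTate W b c) (hΔ : W.Δ ≠ 0) {x y s : K}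
    (h : ThirteenParams b c x y s) :
    tau x ≠ 0 ∧
      W.c₆ ^ 2 / W.Δ * tau x = (tau x ^ 2 + 6 * tau x + 13) * sextic (tau x) ^ 2 := by
  obtain ⟨hH, hs, hy1, hy, hx, hx1, hs0, hc, hb⟩ := h
  set d := x * (x + 1) with hd
  have hd0 : d ≠ 0 := mul_ne_zero hx hx1
  set w := y ^ 2 * s / d with hw
  have hw0 : w ≠ 0 := div_ne_zero (mul_ne_zero (pow_ne_zero _ hy) hs0) hd0
  have hb' : b = -(y ^ 2 * (y + 1) * s / (x + 1)) := by
    rw [hb, hc, ← neg_div, eq_div_iff hx1]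
    linear_combination (y * s) * hH
  have e2 : W.b₂ = w * (beta2 x y / d) := by
    rw [b₂, hT.a₁_eq, hT.a₂_eq, hb', hc, hw, hd]
    field_simp
    linear_combination core_b2 hH hs hy1
  have e4 : W.b₄ = w ^ 2 * (beta4 x y / (x + 1)) := by
    rw [b₄, hT.a₁_eq, hT.a₃_eq, hT.a₄_eq, hb', hc, hw, hd]
    field_simp
    linear_combination (y ^ 2 * s) * core_b4 hH hs hy1
  have e6 : W.b₆ = w ^ 3 * (beta6 x y / (x + 1)) := by
    rw [b₆, hT.a₃_eq, hT.a₆_eq, hb', hw, hd]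
    field_simp
    have k6 : (y + 1) ^ 2 * x ^ 3 * (x + 1) ^ 2 = y ^ 2 * s * beta6 x y :=
      mul_right_cancel₀ hx1 (by linear_combination core_b6 hH hs hy1)
    linear_combination (y ^ 4 * s ^ 2) * k6
  have e8 : W.b₈ = w ^ 4 * (beta8 x y / (x + 1)) := by
    rw [b₈, hT.a₁_eq, hT.a₂_eq, hT.a₃_eq, hT.a₄_eq, hT.a₆_eq, hb', hw, hd]
    field_simp
    have k8 : (y + 1) ^ 3 * x ^ 4 * (x + 1) ^ 2 = y ^ 2 * s * beta8 x y :=
      mul_right_cancel₀ (pow_ne_zero 2 hx1) (by linear_combination core_b8 hH hs hy1)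
    linear_combination (y ^ 6 * s ^ 3) * k8
  set S := 2 * y + (x ^ 3 + x ^ 2 + 1)
  have hc6 : W.c₆ = w ^ 3 * (-(sexticHom x * S) / d ^ 3) := by
    have core := core_c6 hH
    rw [c₆, e2, e4, e6, ← core, hd]
    field_simp
  have hdisc : W.Δ = w ^ 6 * (d ^ 7 * tauNum x) := by
    have core := core_disc hH
    rw [WeierstrassCurve.Δ, e2, e4, e6, e8, hd]
    field_simp
    linear_combination core
  have hn0 : tauNum x ≠ 0 := by intro e; apply hΔ; rw [hdisc, e]; ring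
  refine ⟨div_ne_zero hn0 hd0, ?_⟩
  have hsext : sextic (tau x) = sexticHom x / d ^ 6 := by
    rw [sextic, sexticHom, tau, ← hd, eq_div_iff (pow_ne_zero _ hd0)]
    simp only [tauNum]
    field_simp
  have hS : tau x ^ 2 + 6 * tau x + 13 = S ^ 2 / d ^ 2 := by
    rw [core_sq hH, tau, ← hd]
    field_simp
  rw [hsext, hS, hc6, hdisc, tau, ← hd]
  field_simp

/-- The invariant `τ(κ(Q))` of a point of order 13: a coordinate on `X₀(13)`. -/
noncomputable def tau13 (Q : W.toAffine.Point) : K := tau (kappa Q)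

/-- For a point `Q` of order 13, `tau13 Q` is unchanged by doubling, is nonzero, and satisfies the
equation of `X₀(13)` over the line of `c₆²/Δ`. -/
lemma tau13_spec {Q : W.toAffine.Point} (hQ : PrimeOrder Q 13) (hΔ : W.Δ ≠ 0) :
    tau13 (2 • Q) = tau13 Q ∧ tau13 Q ≠ 0 ∧
      W.c₆ ^ 2 / W.Δ * tau13 Q = (tau13 Q ^ 2 + 6 * tau13 Q + 13) * sextic (tau13 Q) ^ 2 := by
  obtain ⟨C, b, c, P, hT, hb, hP, rfl, hPo⟩ := exists_tate hQ (by norm_num)
  obtain ⟨x, y, s, hxy, k1, k2⟩ := tate_thirteen hT hb hP hPo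
  have hΔ' : (C • W).Δ ≠ 0 := by
    rw [variableChange_Δ]; exact mul_ne_zero (pow_ne_zero _ C.u⁻¹.ne_zero) hΔ
  have nz : ∀ i : ℕ, ¬ 13 ∣ i → i • P ≠ 0 := fun i hi => (hPo.nsmul hi).ne_zero
  have e1 : kappa (vcHom W C P) = x :=
    (kappa_vcHom C hPo.ne_zero (nz 2 (by decide)) (nz 3 (by decide)) (nz 4 (by decide))).trans k1
  have e2 : kappa (2 • vcHom W C P) = -(x + 1) / x := by
    rw [← map_nsmul, kappa_vcHom C (nz 2 (by decide)), k2] <;>
      first | exact (by rw [← mul_nsmul]; exact nz _ (by decide))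
  refine ⟨?_, ?_⟩
  · rw [tau13, tau13, e1, e2, tau_double hxy.x_ne hxy.x_add_one_ne]
  · rw [tau13, e1, ← c₆_sq_div_Δ_variableChange C W]
    exact tate_thirteen_disc hT hΔ' hxy

end Fermat.Agent.SmallExponents
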