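import Fermat.Prelude.Def_FLTPrelim_CofixedLine
import Fermat.Prelude.Def_FLTPrelim_FreyPackage
import Fermat.Agent.EC.TorsionCard
import Fermat.Agent.Gal.Basic
import Fermat.Agent.SmallExponents.Five
import Fermat.Agent.SmallExponents.Quartic
import Fermat.Agent.SmallExponents.Seven
import Fermat.Agent.SmallExponents.Thirteen

/-!
# No cofixed lines for the Frey curve with p = 5, 7, 13

The Frey curve has no Galois-stable line in its `p`-torsion for `p = 5, 13`; together with the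
elementary exponent 7 case this excludes cofixed lines for `p = 5, 7, 13`.
-/

namespace Fermat.Agent.SmallExponents

open WeierstrassCurve WeierstrassCurve.Affine

local notation "Qbar" => AlgebraicClosure ℚ

variable {E : WeierstrassCurve ℚ}

lemma xCoord_smul (σ : Qbar ≃ₐ[ℚ] Qbar) (Q : (E⁄Qbar).Point) :
    xCoord (W := E⁄Qbar) (σ • Q) = σ (xCoord (W := E⁄Qbar) Q) := by
  cases Q
  · exact (map_zero σ).symm
  · rfl

lemma smul_nsmul_point (σ : Qbar ≃ₐ[ℚ] Qbar) (n : ℕ) (Q : (E⁄Qbar).Point) :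
    n • (σ • Q) = σ • (n • Q) :=
  (map_nsmul (Point.map σ.toAlgHom) n Q).symm

lemma baseChange_b₂ : (E⁄Qbar).b₂ = algebraMap ℚ Qbar E.b₂ := map_b₂ ..

lemma baseChange_b₄ : (E⁄Qbar).b₄ = algebraMap ℚ Qbar E.b₄ := map_b₄ ..

lemma baseChange_b₆ : (E⁄Qbar).b₆ = algebraMap ℚ Qbar E.b₆ := map_b₆ ..

lemma baseChange_c₆ : (E⁄Qbar).c₆ = algebraMap ℚ Qbar E.c₆ := map_c₆ ..

lemma baseChange_Δ : (E⁄Qbar).Δ = algebraMap ℚ Qbar E.Δ := map_Δ ..

lemma baseChange_Δ_ne_zero (h : E.Δ ≠ 0) : (E⁄Qbar).Δ ≠ 0 := by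
  rw [baseChange_Δ]
  exact fun e => h ((algebraMap ℚ Qbar).injective (by rw [e, map_zero]))

lemma twoTorsionCubic_smul (σ : Qbar ≃ₐ[ℚ] Qbar) (x : Qbar) :
    σ (twoTorsionCubic (E⁄Qbar) x) = twoTorsionCubic (E⁄Qbar) (σ x) := by
  simp [twoTorsionCubic, baseChange_b₂, baseChange_b₄, baseChange_b₆, map_ofNat]

lemma tateB_smul (σ : Qbar ≃ₐ[ℚ] Qbar) (Q : (E⁄Qbar).Point) :
    tateB (W := E⁄Qbar) (σ • Q) = σ (tateB (W := E⁄Qbar) Q) := by
  simp [tateB, smul_nsmul_point, xCoord_smul, map_div₀, twoTorsionCubic_smul]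

lemma kappa_smul (σ : Qbar ≃ₐ[ℚ] Qbar) (Q : (E⁄Qbar).Point) :
    kappa (W := E⁄Qbar) (σ • Q) = σ (kappa (W := E⁄Qbar) Q) := by
  simp [kappa, smul_nsmul_point, xCoord_smul, map_div₀]

lemma tau5_smul (σ : Qbar ≃ₐ[ℚ] Qbar) (Q : (E⁄Qbar).Point) :
    tau5 (W := E⁄Qbar) (σ • Q) = σ (tau5 (W := E⁄Qbar) Q) := by
  simp [tau5, tateB_smul, map_ofNat]

lemma tau13_smul (σ : Qbar ≃ₐ[ℚ] Qbar) (Q : (E⁄Qbar).Point) :
    tau13 (W := E⁄Qbar) (σ • Q) = σ (tau13 (W := E⁄Qbar) Q) := by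
  simp [tau13, tau, tauNum, kappa_smul, map_div₀, map_ofNat]

/-- A function of a point that is invariant under doubling and Galois-equivariant takes a rational
value at a point spanning a Galois-stable line, when `2` generates `(ℤ/p)ˣ`. -/
lemma exists_rat_eq_of_stable {p : ℕ} (hgen : ∀ k : ZMod p, k ≠ 0 → ∃ i : Fin p, k = 2 ^ (i : ℕ))
    (T : (E⁄Qbar).Point → Qbar) {Q : (E⁄Qbar).Point} (hQ : PrimeOrder Q p) (hp : 5 ≤ p)
    (hdbl : ∀ R : (E⁄Qbar).Point, PrimeOrder R p → T (2 • R) = T R)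
    (hgal : ∀ (σ : Qbar ≃ₐ[ℚ] Qbar) (R : (E⁄Qbar).Point), T (σ • R) = σ (T R))
    (hstable : ∀ σ : Qbar ≃ₐ[ℚ] Qbar, ∃ k : ℕ, σ • Q = k • Q) :
    ∃ t : ℚ, T Q = algebraMap ℚ Qbar t := by
  have : Fact p.Prime := ⟨hQ.prime⟩
  have hpow : ∀ i : ℕ, T (2 ^ i • Q) = T Q := by
    intro i
    induction i with
    | zero => simp
    | succ i ih =>
      rw [pow_succ, mul_nsmul, hdbl _ (hQ.nsmul ?_), ih]
      intro hd
      have := Nat.le_of_dvd (by norm_num) (hQ.prime.dvd_of_dvd_pow hd)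
      omega
  have hfix : ∀ σ : Qbar ≃ₐ[ℚ] Qbar, σ (T Q) = T Q := by
    intro σ
    obtain ⟨k, hk⟩ := hstable σ
    have hk0 : (k : ZMod p) ≠ 0 := by
      rw [Ne, ZMod.natCast_eq_zero_iff]
      intro hd
      apply hQ.ne_zero
      have h0 : σ • Q = 0 := hk.trans ((hQ.nsmul_eq_zero_iff k).mpr hd)
      exact (smul_eq_zero_iff_eq σ).mp h0
    obtain ⟨i, hi⟩ := hgen _ hk0
    have e : k • Q = 2 ^ (i : ℕ) • Q := by
      rw [nsmul_eq_nsmul_iff_modEq, addOrderOf_eq_prime hQ.nsmul_eq hQ.ne_zero,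
        ← ZMod.natCast_eq_natCast_iff]
      push_cast
      exact hi
    rw [← hgal, hk, e, hpow]
  obtain ⟨t, ht⟩ :=
    IntermediateField.mem_bot.mp ((InfiniteGalois.mem_bot_iff_fixed (T Q)).mpr hfix)
  exact ⟨t, ht.symm⟩

/-- For `E/ℚ` with square discriminant and `c₆ ≠ 0` there is no nonzero rational `t` with
`c₆²/Δ · t = (t² + 2at + qᵉ) g²`: it would give a point on `y² = x(x² + 2ax + qᵉ)`. -/
lemma false_of_c₆_sq_div_Δ {a : ℤ} {q e : ℕ} (D : QuarticData a q e) (hΔ : E.Δ ≠ 0)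
    (hsq : IsSquare E.Δ) (hc6 : E.c₆ ≠ 0) {t g : ℚ} (ht : t ≠ 0)
    (h : E.c₆ ^ 2 / E.Δ * t = (t ^ 2 + 2 * a * t + (q : ℚ) ^ e) * g ^ 2) : False := by
  obtain ⟨δ, hδ⟩ := hsq
  have hg : g ≠ 0 := by
    rintro rfl
    simp [hΔ, hc6, ht] at h
  refine no_cubic_rat D (y := E.c₆ / δ * t / g) ht ?_
  rw [hδ] at h
  rw [div_pow, div_eq_iff (pow_ne_zero _ hg), mul_pow, div_pow]
  linear_combination t * h

/-- A curve over `ℚ` with square discriminant and `c₆ ≠ 0` has no Galois-stable subgroup of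
order 5. -/
lemma not_stable_five (hΔ : E.Δ ≠ 0) (hsq : IsSquare E.Δ) (hc6 : E.c₆ ≠ 0)
    {Q : (E⁄Qbar).Point} (hQ : PrimeOrder Q 5)
    (hstable : ∀ σ : Qbar ≃ₐ[ℚ] Qbar, ∃ k : ℕ, σ • Q = k • Q) : False := by
  have hΔ' : (E⁄Qbar).Δ ≠ 0 := baseChange_Δ_ne_zero hΔ
  obtain ⟨t, ht⟩ := exists_rat_eq_of_stable (by decide) (tau5 (W := E⁄Qbar)) hQ le_rfl
    (fun R hR => (tau5_spec hR hΔ').1) tau5_smul hstable
  obtain ⟨-, ht0, heq⟩ := tau5_spec hQ hΔ'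
  rw [ht] at ht0 heq
  refine false_of_c₆_sq_div_Δ quarticData_five hΔ hsq hc6 (t := t) (g := quadratic t)
    (by rintro rfl; simp at ht0) ?_
  apply (algebraMap ℚ Qbar).injective
  norm_num
  simpa [quadratic, baseChange_c₆, baseChange_Δ, map_div₀, map_ofNat] using heq

/-- A curve over `ℚ` with square discriminant and `c₆ ≠ 0` has no Galois-stable subgroup of
order 13. -/
lemma not_stable_thirteen (hΔ : E.Δ ≠ 0) (hsq : IsSquare E.Δ) (hc6 : E.c₆ ≠ 0)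
    {Q : (E⁄Qbar).Point} (hQ : PrimeOrder Q 13)
    (hstable : ∀ σ : Qbar ≃ₐ[ℚ] Qbar, ∃ k : ℕ, σ • Q = k • Q) : False := by
  have hΔ' : (E⁄Qbar).Δ ≠ 0 := baseChange_Δ_ne_zero hΔ
  obtain ⟨t, ht⟩ := exists_rat_eq_of_stable (by decide) (tau13 (W := E⁄Qbar)) hQ (by norm_num)
    (fun R hR => (tau13_spec hR hΔ').1) tau13_smul hstable
  obtain ⟨-, ht0, heq⟩ := tau13_spec hQ hΔ'
  rw [ht] at ht0 heq
  refine false_of_c₆_sq_div_Δ quarticData_thirteen hΔ hsq hc6 (t := t) (g := sextic t)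
    (by rintro rfl; simp at ht0) ?_
  apply (algebraMap ℚ Qbar).injective
  norm_num
  simpa [sextic, baseChange_c₆, baseChange_Δ, map_div₀, map_ofNat] using heq

/-- A nonzero proper Galois-stable subspace of the `p`-torsion gives a point of order `p` spanning a
Galois-stable line. -/
lemma exists_stable_point [E.IsElliptic] {p : ℕ} [Fact p.Prime]
    (N : Submodule (ZMod p) (Submodule.torsionBy ℤ (E⁄Qbar).Point p))
    (hst : Point.IsGaloisStable ℚ N) (hbot : N ≠ ⊥) (htop : N ≠ ⊤) :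
    ∃ Q : (E⁄Qbar).Point, PrimeOrder Q p ∧ ∀ σ : Qbar ≃ₐ[ℚ] Qbar, ∃ k : ℕ, σ • Q = k • Q := by
  have hp0 : (p : Qbar) ≠ 0 := Nat.cast_ne_zero.mpr (Fact.out : p.Prime).ne_zero
  have hfr := Fermat.Agent.EC.finrank_torsionBy (K := Qbar) E p hp0
  have : FiniteDimensional (ZMod p) (Submodule.torsionBy ℤ (E⁄Qbar).Point p) :=
    Module.finite_of_finrank_pos (by rw [hfr]; norm_num)
  have hlt : Module.finrank (ZMod p) N ≤ 1 := by
    have := Submodule.finrank_lt htop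
    omega
  obtain ⟨x, hxN, hx0⟩ := (Submodule.ne_bot_iff N).mp hbot
  refine ⟨x, ⟨Fact.out, fun e => hx0 (Subtype.ext e), ?_⟩, fun σ => ?_⟩
  · have := x.2
    rwa [Submodule.mem_torsionBy_iff, natCast_zsmul] at this
  · have h1 : Module.finrank (ZMod p) N = 1 := by
      have : Nontrivial N := (Submodule.nontrivial_iff_ne_bot).mpr hbot
      have := Module.finrank_pos (R := ZMod p) (M := N)
      omega
    obtain ⟨a, ha⟩ := exists_smul_eq_of_finrank_eq_one h1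
      (x := (⟨x, hxN⟩ : N)) (fun e => hx0 (congrArg Subtype.val e)) ⟨σ • x, hst σ x hxN⟩
    refine ⟨a.val, ?_⟩
    have ha' : a • x = σ • x := congrArg Subtype.val ha
    rw [← ZMod.natCast_zmod_val a, Nat.cast_smul_eq_nsmul] at ha'
    exact (congrArg Subtype.val ha').symm

section Frey

variable (P : FreyPackage)

lemma frey_Δ :
    P.freyCurve.Δ = ((P.a : ℚ) ^ P.p * (P.b : ℚ) ^ P.p * (P.c : ℚ) ^ P.p / 16) ^ 2 := by
  have h : (P.c : ℚ) ^ P.p = (P.a : ℚ) ^ P.p + (P.b : ℚ) ^ P.p := by exact_mod_cast P.hFLT.symm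
  rw [h]
  simp [FreyPackage.freyCurve, WeierstrassCurve.Δ, b₂, b₄, b₆, b₈]
  ring

lemma frey_Δ_ne_zero : P.freyCurve.Δ ≠ 0 := by
  rw [frey_Δ]
  simp [P.ha0, P.hb0, P.hc0]

/-- The invariant `c₆` of the Frey curve is nonzero. -/
lemma frey_c₆_ne_zero : P.freyCurve.c₆ ≠ 0 := by
  have hc : P.freyCurve.c₆ = (((P.a ^ P.p - P.b ^ P.p) * (2 * P.a ^ P.p + P.b ^ P.p)
      * (P.a ^ P.p + 2 * P.b ^ P.p) : ℤ) : ℚ) / 2 := by
    simp [FreyPackage.freyCurve, c₆, b₂, b₄, b₆]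
    ring
  have hp := P.hppos
  have ha : Odd P.a := by
    rcases Int.even_or_odd P.a with ⟨i, hi⟩ | h
    · exfalso
      have h4 := P.ha4
      rw [hi, ← two_mul] at h4
      push_cast at h4
      revert h4
      generalize (i : ZMod 4) = j
      revert j; decide
    · exact h
  have hb : Even P.b := even_iff_two_dvd.mpr (by
    exact_mod_cast (ZMod.intCast_zmod_eq_zero_iff_dvd P.b 2).mp P.hb2)
  have hA : Odd (P.a ^ P.p) := ha.pow
  have hB : Even (P.b ^ P.p) := Int.even_pow.mpr ⟨hb, hp.ne'⟩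
  have h1 : P.a ^ P.p - P.b ^ P.p ≠ 0 := fun e =>
    (Int.not_even_iff_odd.mpr (hA.sub_even hB)) (e ▸ Even.zero)
  have h3 : P.a ^ P.p + 2 * P.b ^ P.p ≠ 0 := fun e =>
    (Int.not_even_iff_odd.mpr (hA.add_even (hB.mul_left 2))) (e ▸ Even.zero)
  have h2 : 2 * P.a ^ P.p + P.b ^ P.p ≠ 0 := by
    intro e
    have hg : Int.gcd P.a P.b = 1 := by
      exact_mod_cast (Int.coe_gcd P.a P.b).trans P.hgcdab
    have hcop : IsCoprime (P.a ^ P.p) (P.b ^ P.p) := (Int.isCoprime_iff_gcd_eq_one.mpr hg).pow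
    have hu : IsUnit (P.a ^ P.p) := hcop.isUnit_of_dvd' dvd_rfl ⟨-2, by linarith⟩
    have h2' : (P.b ^ P.p).natAbs = 2 := by
      rcases Int.isUnit_iff.mp hu with h | h <;> rw [h] at e <;> omega
    rw [Int.natAbs_pow] at h2'
    have hb2 : 2 ≤ P.b.natAbs := by
      obtain ⟨i, hi⟩ := hb
      have := P.hb0
      omega
    have := Nat.pow_le_pow_left hb2 P.p
    have : 2 ^ 5 ≤ 2 ^ P.p := Nat.pow_le_pow_right (by norm_num) P.hp5
    omega
  rw [hc]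
  exact div_ne_zero (by exact_mod_cast mul_ne_zero (mul_ne_zero h1 h2) h3) two_ne_zero

/-- The Frey curve has no Galois-stable cofixed line in its `p`-torsion for `p ∈ {5, 7, 13}`. -/
theorem no_cofixed_small (hp : P.p = 5 ∨ P.p = 7 ∨ P.p = 13) :
    ¬ Point.HasGaloisStableCofixedLine (K := Qbar) ℚ P.freyCurve P.p := by
  rintro ⟨N, hst, hbot, htop, -⟩
  rcases hp with h | h | h
  rotate_left
  · exact fermat_seven P.ha0 P.hb0 P.hc0 (h ▸ P.hFLT)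
  all_goals
    have : P.freyCurve.IsElliptic := ⟨isUnit_iff_ne_zero.mpr (frey_Δ_ne_zero P)⟩
    have : Fact P.p.Prime := ⟨P.pp⟩
    obtain ⟨Q, hQ, hQs⟩ := exists_stable_point N hst hbot htop
    rw [h] at hQ
    have hsq : IsSquare P.freyCurve.Δ := ⟨_, (frey_Δ P).trans (sq _)⟩
  · exact not_stable_thirteen (frey_Δ_ne_zero P) hsq (frey_c₆_ne_zero P) hQ hQs
  · exact not_stable_five (frey_Δ_ne_zero P) hsq (frey_c₆_ne_zero P) hQ hQs

end Frey

end Fermat.Agent.SmallExponents
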