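import Mathlib

/-!
# Coprime factorisations

Elementary lemmas for the descents: splitting coprime factorisations of `c * z⁴`.
-/

namespace Fermat.Agent.SmallExponents

/-- Coprime naturals with product `q^e * z⁴` (`q` prime): one is `q^e * h⁴`, the other is `k⁴`. -/
lemma split_prime_pow_fourth {q e x y z : ℕ} (hq : q.Prime) (hco : Nat.Coprime x y)
    (h : x * y = q ^ e * z ^ 4) :
    ∃ a b, z = a * b ∧ Nat.Coprime a b ∧
      (x = q ^ e * a ^ 4 ∧ y = b ^ 4 ∨ y = q ^ e * a ^ 4 ∧ x = b ^ 4) := by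
  wlog hy : ¬ q ∣ y generalizing x y with H
  · have hx : ¬ q ∣ x := fun hx =>
      hq.not_dvd_one (hco.gcd_eq_one ▸ Nat.dvd_gcd hx (not_not.mp hy))
    obtain ⟨a, b, h1, h2, h3⟩ := H hco.symm (by rw [mul_comm, h]) hx
    exact ⟨a, b, h1, h2, h3.symm⟩
  have hd : q ^ e ∣ x :=
    ((Nat.Prime.coprime_iff_not_dvd hq).mpr hy |>.pow_left e).dvd_of_dvd_mul_right ⟨_, h⟩
  obtain ⟨x', rfl⟩ := hd
  have h' : x' * y = z ^ 4 := by
    have := hq.pos
    exact Nat.eq_of_mul_eq_mul_left (pow_pos this e) (by rw [← h]; ring)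
  have hco' : Nat.Coprime x' y := hco.coprime_dvd_left (dvd_mul_left _ _)
  obtain ⟨a, rfl⟩ := exists_eq_pow_of_mul_eq_pow (Nat.isUnit_iff.mpr hco') h'
  obtain ⟨b, rfl⟩ :=
    exists_eq_pow_of_mul_eq_pow (Nat.isUnit_iff.mpr hco'.symm) ((mul_comm _ _).trans h')
  refine ⟨a, b, ?_, ?_, Or.inl ⟨rfl, rfl⟩⟩
  · exact (Nat.pow_left_injective (by norm_num : 4 ≠ 0) (by simp only [← h', mul_pow])).symm
  · exact (Nat.coprime_pow_left_iff (by norm_num) _ _).mp
      ((Nat.coprime_pow_right_iff (by norm_num) _ _).mp hco')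

/-- Integer version: two coprime nonnegative integers with product `q^e * z⁴`. -/
lemma int_split_prime_pow_fourth {q e : ℕ} {x y z : ℤ} (hq : q.Prime) (hx : 0 ≤ x) (hy : 0 ≤ y)
    (hco : Int.gcd x y = 1) (h : x * y = (q : ℤ) ^ e * z ^ 4) :
    ∃ a b : ℤ, z.natAbs = a.natAbs * b.natAbs ∧ z ^ 2 = a ^ 2 * b ^ 2 ∧ Int.gcd a b = 1 ∧
      (x = (q : ℤ) ^ e * a ^ 4 ∧ y = b ^ 4 ∨ y = (q : ℤ) ^ e * a ^ 4 ∧ x = b ^ 4) := by
  lift x to ℕ using hx
  lift y to ℕ using hy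
  have h' : x * y = q ^ e * z.natAbs ^ 4 := by
    have := congrArg Int.natAbs h
    simpa [Int.natAbs_mul, Int.natAbs_pow] using this
  obtain ⟨a, b, h1, h2, h3⟩ := split_prime_pow_fourth hq (by simpa using hco) h'
  refine ⟨a, b, by simp [h1], ?_, by simpa using h2, ?_⟩
  · have : z ^ 2 = ((z.natAbs : ℤ)) ^ 2 := by simp
    rw [this, h1]; push_cast; ring
  · rcases h3 with ⟨r, s⟩ | ⟨r, s⟩
    · left; exact ⟨by exact_mod_cast r, by exact_mod_cast s⟩
    · right; exact ⟨by exact_mod_cast r, by exact_mod_cast s⟩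

/-- `gcd = 1` criterion over `ℤ` by primes. -/
lemma int_gcd_eq_one_of {x y : ℤ}
    (h : ∀ r : ℕ, r.Prime → (r : ℤ) ∣ x → (r : ℤ) ∣ y → False) : Int.gcd x y = 1 := by
  by_contra hne
  obtain ⟨r, hr, hd⟩ := Nat.exists_prime_and_dvd hne
  have hd' : (r : ℤ) ∣ (Int.gcd x y : ℤ) := by exact_mod_cast hd
  exact h r hr (hd'.trans (Int.gcd_dvd_left ..)) (hd'.trans (Int.gcd_dvd_right ..))

/-- No prime divides both of two coprime integers. -/
lemma not_prime_dvd_both {x y : ℤ} (h : Int.gcd x y = 1) {r : ℕ} (hr : r.Prime)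
    (hx : (r : ℤ) ∣ x) (hy : (r : ℤ) ∣ y) : False := by
  have := Int.dvd_gcd hx hy
  rw [h] at this
  exact hr.not_dvd_one (by exact_mod_cast this)

end Fermat.Agent.SmallExponents
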